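import Mathlib

set_option autoImplicit false

/-!
# First case of Fermat's Last Theorem for `p = 5, 7, 11, 13` via Sophie Germain's theorem
-/

namespace FLTSmall

open Finset

/-- The cofactor `(y ^ p + z ^ p) / (y + z)`. -/
def sgPhi (p : ℕ) (y z : ℤ) : ℤ := ∑ i ∈ range p, y ^ i * (-z) ^ (p - 1 - i)

theorem sgPhi_mul {p : ℕ} (hp : Odd p) (y z : ℤ) : (y + z) * sgPhi p y z = y ^ p + z ^ p := by
  have h := geom_sum₂_mul y (-z) p
  rw [hp.neg_pow] at h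
  rw [sgPhi, mul_comm]
  linarith

theorem sgPhi_isCoprime {p : ℕ} (hp : p.Prime) {y z : ℤ} (hyz : IsCoprime y z)
    (hpyz : ¬ (p : ℤ) ∣ y + z) : IsCoprime (y + z) (sgPhi p y z) := by
  have hpZ : Prime (p : ℤ) := Nat.prime_iff_prime_int.1 hp
  refine isCoprime_of_prime_dvd ?_ ?_
  · rintro ⟨h0, -⟩
    exact hpyz (h0 ▸ dvd_zero _)
  · intro r hr hr1 hr2
    have h1 : r ∣ y - (-z) := by simpa using hr1
    have h2 : r ∣ (p : ℤ) * (-z) ^ (p - 1) := (dvd_geom_sum₂_iff_of_dvd_sub h1).1 hr2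
    rcases hr.dvd_or_dvd h2 with h3 | h3
    · -- `r ∣ p`
      have h4 : Associated r (p : ℤ) := hr.associated_of_dvd hpZ h3
      exact hpyz (h4.symm.dvd.trans hr1)
    · have h4 : r ∣ z := by
        have := hr.dvd_of_dvd_pow h3
        simpa using this
      have h5 : r ∣ y := by
        have := dvd_sub hr1 h4
        simpa using this
      exact hr.not_isUnit (hyz.isUnit_of_dvd' h5 h4)

theorem sgPhi_cast_of_add_eq_zero {p θ : ℕ} (y z : ℤ) (h : ((y + z : ℤ) : ZMod θ) = 0) :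
    ((sgPhi p y z : ℤ) : ZMod θ) = (p : ZMod θ) * (y : ZMod θ) ^ (p - 1) := by
  have hz : ((-z : ℤ) : ZMod θ) = (y : ZMod θ) := by
    push_cast at h ⊢
    linear_combination (-1 : ZMod θ) * h
  rw [sgPhi]
  push_cast at hz ⊢
  rw [hz, geom_sum₂_self]

theorem sgPhi_cast_of_eq_zero {p θ : ℕ} (hp : Odd p) (x y : ℤ) (h : ((x : ℤ) : ZMod θ) = 0) :
    ((sgPhi p x y : ℤ) : ZMod θ) = (y : ZMod θ) ^ (p - 1) := by
  have hp0 : 0 < p := hp.pos
  have hev : Even (p - 1) := by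
    obtain ⟨k, hk⟩ := hp
    exact ⟨k, by omega⟩
  rw [sgPhi]
  push_cast
  rw [h, Finset.sum_eq_single 0]
  · simp [hev.neg_pow]
  · intro i _ hi
    simp [hi]
  · intro h0
    exact absurd (Finset.mem_range.2 hp0) h0

/-- Asymmetric core of Sophie Germain's theorem. -/
theorem sophie_germain_aux {p θ : ℕ} (hp : p.Prime) (hp2 : p ≠ 2) (hθ : θ.Prime)
    (C1 : ∀ x y z : ZMod θ, x ^ p + y ^ p + z ^ p = 0 → x = 0 ∨ y = 0 ∨ z = 0)
    (C2 : ∀ x : ZMod θ, x ^ p ≠ (p : ZMod θ))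
    {x y z : ℤ} (hxy : IsCoprime x y) (hyz : IsCoprime y z) (hzx : IsCoprime z x)
    (h : x ^ p + y ^ p + z ^ p = 0)
    (hpx : ¬ (p : ℤ) ∣ x) (hpy : ¬ (p : ℤ) ∣ y) (hpz : ¬ (p : ℤ) ∣ z)
    (hθx : (θ : ℤ) ∣ x) : False := by
  have : Fact θ.Prime := ⟨hθ⟩
  have hodd : Odd p := hp.odd_of_ne_two hp2
  have hpZ : Prime (p : ℤ) := Nat.prime_iff_prime_int.1 hp
  have hθZ : Prime (θ : ℤ) := Nat.prime_iff_prime_int.1 hθ
  -- `p` does not divide the sums
  have key : ∀ u v w : ℤ, u ^ p + v ^ p + w ^ p = 0 → ¬ (p : ℤ) ∣ u → ¬ (p : ℤ) ∣ v + w := by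
    intro u v w huvw hu hvw
    have h1 : (p : ℤ) ∣ v ^ p + w ^ p := by
      rw [← sgPhi_mul hodd]; exact hvw.mul_right _
    have h2 : (p : ℤ) ∣ u ^ p := by
      have : u ^ p = -(v ^ p + w ^ p) := by linarith
      rw [this]; exact (dvd_neg).2 h1
    exact hu (hpZ.dvd_of_dvd_pow h2)
  have hyz' : ¬ (p : ℤ) ∣ y + z := key x y z h hpx
  have hzx' : ¬ (p : ℤ) ∣ z + x := key y z x (by linarith) hpy
  have hxy' : ¬ (p : ℤ) ∣ x + y := key z x y (by linarith) hpz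
  obtain ⟨⟨a, ha⟩, ⟨α, hα⟩⟩ := Int.eq_pow_of_mul_eq_pow_odd (c := -x)
    (sgPhi_isCoprime hp hyz hyz') hodd (by rw [sgPhi_mul hodd, hodd.neg_pow]; linarith)
  obtain ⟨⟨b, hb⟩, -⟩ := Int.eq_pow_of_mul_eq_pow_odd (c := -y)
    (sgPhi_isCoprime hp hzx hzx') hodd (by rw [sgPhi_mul hodd, hodd.neg_pow]; linarith)
  obtain ⟨⟨c, hc⟩, ⟨γ, hγ⟩⟩ := Int.eq_pow_of_mul_eq_pow_odd (c := -z)
    (sgPhi_isCoprime hp hxy hxy') hodd (by rw [sgPhi_mul hodd, hodd.neg_pow]; linarith)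
  have hx0 : ((x : ℤ) : ZMod θ) = 0 := (ZMod.intCast_zmod_eq_zero_iff_dvd x θ).2 hθx
  have hy0 : ((y : ℤ) : ZMod θ) ≠ 0 := by
    intro hy0
    have : (θ : ℤ) ∣ y := (ZMod.intCast_zmod_eq_zero_iff_dvd y θ).1 hy0
    exact hθZ.not_isUnit (hxy.isUnit_of_dvd' hθx this)
  have hz0 : ((z : ℤ) : ZMod θ) ≠ 0 := by
    intro hz0
    have : (θ : ℤ) ∣ z := (ZMod.intCast_zmod_eq_zero_iff_dvd z θ).1 hz0
    exact hθZ.not_isUnit (hzx.isUnit_of_dvd' this hθx)
  have hsum : (b : ZMod θ) ^ p + (c : ZMod θ) ^ p + (-(a : ZMod θ)) ^ p = 0 := by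
    have h1 : b ^ p + c ^ p + (-a) ^ p = 2 * x := by
      rw [hodd.neg_pow, ← ha, ← hb, ← hc]; ring
    have h2 := congrArg (Int.cast : ℤ → ZMod θ) h1
    push_cast at h2
    rw [h2, hx0, mul_zero]
  have hp0 : p ≠ 0 := hp.ne_zero
  rcases C1 _ _ _ hsum with hb0 | hc0 | ha0
  · -- `θ ∣ b`, so `θ ∣ z + x`, so `θ ∣ z`
    have h1 := congrArg (Int.cast : ℤ → ZMod θ) hb
    push_cast at h1
    rw [hb0, zero_pow hp0, hx0, add_zero] at h1
    exact hz0 h1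
  · have h1 := congrArg (Int.cast : ℤ → ZMod θ) hc
    push_cast at h1
    rw [hc0, zero_pow hp0, hx0, zero_add] at h1
    exact hy0 h1
  · have ha0' : (a : ZMod θ) = 0 := by simpa using ha0
    have h1 : ((y + z : ℤ) : ZMod θ) = 0 := by
      rw [ha]; push_cast; rw [ha0', zero_pow hp0]
    have h2 := sgPhi_cast_of_add_eq_zero (p := p) (θ := θ) y z h1
    have h3 := sgPhi_cast_of_eq_zero (p := p) (θ := θ) hodd x y hx0
    rw [hα] at h2
    rw [hγ] at h3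
    push_cast at h2 h3
    have hγ0 : (γ : ZMod θ) ≠ 0 := by
      intro h0
      rw [h0, zero_pow hp0] at h3
      exact pow_ne_zero _ hy0 h3.symm
    apply C2 ((α : ZMod θ) / (γ : ZMod θ))
    rw [div_pow, h2, h3]
    field_simp

/-- **Sophie Germain's theorem**. -/
theorem sophie_germain {p θ : ℕ} (hp : p.Prime) (hp2 : p ≠ 2) (hθ : θ.Prime)
    (C1 : ∀ x y z : ZMod θ, x ^ p + y ^ p + z ^ p = 0 → x = 0 ∨ y = 0 ∨ z = 0)
    (C2 : ∀ x : ZMod θ, x ^ p ≠ (p : ZMod θ))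
    {x y z : ℤ} (hxy : IsCoprime x y) (hyz : IsCoprime y z) (hzx : IsCoprime z x)
    (h : x ^ p + y ^ p + z ^ p = 0) : (p : ℤ) ∣ x * y * z := by
  by_contra hcon
  have hpx : ¬ (p : ℤ) ∣ x := fun hd => hcon ((hd.mul_right y).mul_right z)
  have hpy : ¬ (p : ℤ) ∣ y := fun hd => hcon ((hd.mul_left x).mul_right z)
  have hpz : ¬ (p : ℤ) ∣ z := fun hd => hcon (hd.mul_left (x * y))
  have h1 := congrArg (Int.cast : ℤ → ZMod θ) h
  push_cast at h1
  rcases C1 _ _ _ h1 with h0 | h0 | h0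
  · exact sophie_germain_aux hp hp2 hθ C1 C2 hxy hyz hzx h hpx hpy hpz
      ((ZMod.intCast_zmod_eq_zero_iff_dvd x θ).1 h0)
  · exact sophie_germain_aux hp hp2 hθ C1 C2 hyz hzx hxy (by linarith) hpy hpz hpx
      ((ZMod.intCast_zmod_eq_zero_iff_dvd y θ).1 h0)
  · exact sophie_germain_aux hp hp2 hθ C1 C2 hzx hxy hyz (by linarith) hpz hpx hpy
      ((ZMod.intCast_zmod_eq_zero_iff_dvd z θ).1 h0)


theorem C1_5 : ∀ x y z : ZMod 11, x ^ 5 + y ^ 5 + z ^ 5 = 0 → x = 0 ∨ y = 0 ∨ z = 0 := by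
  have hS : ∀ x : ZMod 11, x = 0 ∨ x ^ 5 = 1 ∨ x ^ 5 = 10 := by decide
  intro x y z h
  rcases hS x with hx | hx | hx
  · exact Or.inl hx
  all_goals
    rcases hS y with hy | hy | hy
    · exact Or.inr (Or.inl hy)
    all_goals
      rcases hS z with hz | hz | hz
      · exact Or.inr (Or.inr hz)
      all_goals (exfalso; rw [hx, hy, hz] at h; revert h; decide)

theorem C2_5 : ∀ x : ZMod 11, x ^ 5 ≠ ((5 : ℕ) : ZMod 11) := by decide

theorem C1_11 : ∀ x y z : ZMod 23, x ^ 11 + y ^ 11 + z ^ 11 = 0 → x = 0 ∨ y = 0 ∨ z = 0 := by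
  have hS : ∀ x : ZMod 23, x = 0 ∨ x ^ 11 = 1 ∨ x ^ 11 = 22 := by decide
  intro x y z h
  rcases hS x with hx | hx | hx
  · exact Or.inl hx
  all_goals
    rcases hS y with hy | hy | hy
    · exact Or.inr (Or.inl hy)
    all_goals
      rcases hS z with hz | hz | hz
      · exact Or.inr (Or.inr hz)
      all_goals (exfalso; rw [hx, hy, hz] at h; revert h; decide)

theorem C2_11 : ∀ x : ZMod 23, x ^ 11 ≠ ((11 : ℕ) : ZMod 23) := by decide

theorem C1_7 : ∀ x y z : ZMod 29, x ^ 7 + y ^ 7 + z ^ 7 = 0 → x = 0 ∨ y = 0 ∨ z = 0 := by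
  have hS : ∀ x : ZMod 29, x = 0 ∨ x ^ 7 = 1 ∨ x ^ 7 = 12 ∨ x ^ 7 = 17 ∨ x ^ 7 = 28 := by decide
  intro x y z h
  rcases hS x with hx | hx | hx | hx | hx
  · exact Or.inl hx
  all_goals
    rcases hS y with hy | hy | hy | hy | hy
    · exact Or.inr (Or.inl hy)
    all_goals
      rcases hS z with hz | hz | hz | hz | hz
      · exact Or.inr (Or.inr hz)
      all_goals (exfalso; rw [hx, hy, hz] at h; revert h; decide)

theorem C2_7 : ∀ x : ZMod 29, x ^ 7 ≠ ((7 : ℕ) : ZMod 29) := by decide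

theorem C1_13 : ∀ x y z : ZMod 53, x ^ 13 + y ^ 13 + z ^ 13 = 0 → x = 0 ∨ y = 0 ∨ z = 0 := by
  have hS : ∀ x : ZMod 53, x = 0 ∨ x ^ 13 = 1 ∨ x ^ 13 = 23 ∨ x ^ 13 = 30 ∨ x ^ 13 = 52 := by
    decide
  intro x y z h
  rcases hS x with hx | hx | hx | hx | hx
  · exact Or.inl hx
  all_goals
    rcases hS y with hy | hy | hy | hy | hy
    · exact Or.inr (Or.inl hy)
    all_goals
      rcases hS z with hz | hz | hz | hz | hz
      · exact Or.inr (Or.inr hz)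
      all_goals (exfalso; rw [hx, hy, hz] at h; revert h; decide)

theorem C2_13 : ∀ x : ZMod 53, x ^ 13 ≠ ((13 : ℕ) : ZMod 53) := by decide

theorem isCoprime_of_eq {p : ℕ} (hp : 0 < p) {a b c : ℤ} (hab : IsCoprime a b)
    (h : a ^ p + b ^ p = c ^ p) : IsCoprime b c := by
  rw [← IsCoprime.pow_iff hp hp, ← h]
  have h1 : IsCoprime (b ^ p) (a ^ p) := (hab.symm.pow)
  simpa using h1.add_mul_left_right 1

/-- First case of FLT for `p = 5, 7, 11, 13`. -/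
theorem caseI {p : ℕ} (hp : p = 5 ∨ p = 7 ∨ p = 11 ∨ p = 13) {a b c : ℤ} (hab : IsCoprime a b)
    (h : a ^ p + b ^ p = c ^ p) : (p : ℤ) ∣ a * b * c := by
  have hp0 : 0 < p := by rcases hp with rfl | rfl | rfl | rfl <;> norm_num
  have hodd : Odd p := by rcases hp with rfl | rfl | rfl | rfl <;> decide
  have hbc : IsCoprime b c := isCoprime_of_eq hp0 hab h
  have hac : IsCoprime a c := isCoprime_of_eq hp0 hab.symm (by rw [add_comm]; exact h)
  have h' : a ^ p + b ^ p + (-c) ^ p = 0 := by rw [hodd.neg_pow, h]; ring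
  have key : (p : ℤ) ∣ a * b * (-c) := by
    rcases hp with rfl | rfl | rfl | rfl
    · exact sophie_germain (θ := 11) (by norm_num) (by norm_num) (by norm_num) C1_5 C2_5 hab
        hbc.neg_right hac.symm.neg_left h'
    · exact sophie_germain (θ := 29) (by norm_num) (by norm_num) (by norm_num) C1_7 C2_7 hab
        hbc.neg_right hac.symm.neg_left h'
    · exact sophie_germain (θ := 23) (by norm_num) (by norm_num) (by norm_num) C1_11 C2_11 hab
        hbc.neg_right hac.symm.neg_left h'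
    · exact sophie_germain (θ := 53) (by norm_num) (by norm_num) (by norm_num) C1_13 C2_13 hab
        hbc.neg_right hac.symm.neg_left h'
  simpa using key

end FLTSmall
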