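import Mathlib

/-!
# Case II of Fermat's Last Theorem in an abstract "Kummer ring" which is a PID
-/

open Polynomial Finset

namespace FLTSmall

/-- Abstract data: `R` behaves like `ℤ[ζ_p]`. -/
structure KBase (p : ℕ) (R : Type*) [CommRing R] (z : R) : Prop where
  prim : IsPrimitiveRoot z p
  prime : Prime (z - 1)
  assoc : Associated ((z - 1) ^ (p - 1)) (p : R)
  int_mod : ∀ x : R, ∃ n : ℤ, (z - 1) ∣ x - (n : R)
  dvd_int : ∀ n : ℤ, (z - 1) ∣ (n : R) → (p : ℤ) ∣ n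

/-- Abstract data: `R` behaves like `ℤ[ζ_p]`, and Kummer's lemma holds. -/
structure KData (p : ℕ) (R : Type*) [CommRing R] (z : R) : Prop extends KBase p R z where
  kummer : ∀ u : Rˣ, (∃ n : ℤ, (p : R) ∣ (u : R) - (n : R)) → ∃ v : Rˣ, u = v ^ p

/-- The generalized Fermat equation has a solution with `π`-adic valuation `m`. -/
def HasSol (p : ℕ) {R : Type*} [CommRing R] (z : R) (m : ℕ) : Prop :=
  ∃ x y w : R, ∃ ε : Rˣ, IsCoprime x y ∧ ¬ (z - 1) ∣ x ∧ ¬ (z - 1) ∣ y ∧ ¬ (z - 1) ∣ w ∧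
    x ^ p + y ^ p = ε * ((z - 1) ^ m * w) ^ p

variable {p : ℕ} {R : Type*} [CommRing R] {z : R}

namespace KBase

lemma p_dvd_pow (D : KBase p R z) {k : ℕ} (hk : p - 1 ≤ k) : (p : R) ∣ (z - 1) ^ k :=
  D.assoc.symm.dvd.trans (pow_dvd_pow _ hk)

lemma pi_dvd_p (D : KBase p R z) (hp : p.Prime) : (z - 1) ∣ (p : R) :=
  (dvd_pow_self _ (by have := hp.two_le; omega)).trans D.assoc.dvd

lemma pi_dvd_int (D : KBase p R z) (hp : p.Prime) {n : ℤ} (h : (p : ℤ) ∣ n) :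
    (z - 1) ∣ (n : R) := by
  obtain ⟨k, rfl⟩ := h
  push_cast
  exact (D.pi_dvd_p hp).mul_right _

lemma p_dvd_int {n : ℤ} (h : (p : ℤ) ∣ n) : (p : R) ∣ (n : R) := by
  obtain ⟨k, rfl⟩ := h
  push_cast
  exact dvd_mul_right _ _

/-- `x ^ p` is congruent to an integer mod `p`. -/
lemma pow_int_mod (D : KBase p R z) (hp : p.Prime) (x : R) :
    ∃ n : ℤ, (p : R) ∣ x ^ p - (n : R) ∧ (¬ (z - 1) ∣ x → ¬ (p : ℤ) ∣ n) := by
  obtain ⟨n, t, ht⟩ := D.int_mod x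
  have hx : x = (n : R) + (z - 1) * t := by rw [← ht]; ring
  obtain ⟨r, hr⟩ := exists_add_pow_prime_eq hp (n : R) ((z - 1) * t)
  refine ⟨n ^ p, ?_, ?_⟩
  · have h1 : (p : R) ∣ (z - 1) ^ p := D.p_dvd_pow (by omega)
    obtain ⟨s, hs⟩ := h1
    refine ⟨s * t ^ p + (n : R) * ((z - 1) * t) * r, ?_⟩
    rw [hx, hr, mul_pow, hs]
    push_cast
    ring
  · intro hnd hdvd
    apply hnd
    have h2 : (p : ℤ) ∣ n := Int.Prime.dvd_pow' hp hdvd
    rw [hx]
    exact dvd_add (D.pi_dvd_int hp h2) (dvd_mul_right _ _)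

end KBase

section core

variable [IsDomain R]

lemma one_mem_mu (hp : p.Prime) : (1 : R) ∈ nthRootsFinset p (1 : R) :=
  (mem_nthRootsFinset hp.pos 1).2 (one_pow p)

lemma pow_mem_mu (D : KData p R z) (hp : p.Prime) (i : ℕ) :
    z ^ i ∈ nthRootsFinset p (1 : R) :=
  (mem_nthRootsFinset hp.pos 1).2 (by rw [← pow_mul, mul_comm, pow_mul, D.prim.pow_eq_one, one_pow])

/-- The core of the descent, assuming `π ^ 2 ∣ x + y`. -/
lemma core [IsPrincipalIdealRing R] (hp : p.Prime) (hp3 : 3 ≤ p) (D : KData p R z) {m : ℕ}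
    {x y w : R} {ε : Rˣ} (cop : IsCoprime x y) (hw : ¬ (z - 1) ∣ w)
    (eq : x ^ p + y ^ p = ε * ((z - 1) ^ (m + 1) * w) ^ p) (h2 : (z - 1) ^ 2 ∣ x + y) :
    1 ≤ m ∧ HasSol p z m := by
  classical
  set π := z - 1 with hπdef
  have hπ : Prime π := D.prime
  set μ := nthRootsFinset p (1 : R) with hμdef
  have hμ1 : (1 : R) ∈ μ := one_mem_mu hp
  have hμz : z ∈ μ := by simpa using pow_mem_mu D hp 1
  have hμz' : z ^ (p - 1) ∈ μ := pow_mem_mu D hp (p - 1)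
  have hdvd : ∀ η ∈ μ, π ∣ x + η * y := fun η hη => by
    have h1 : π ∣ x + y := dvd_trans (dvd_pow_self π two_ne_zero) h2
    have h3 : π ∣ η - 1 := D.prim.sub_one_dvd_sub hp hη hμ1
    have : x + η * y = (x + y) + (η - 1) * y := by ring
    rw [this]
    exact dvd_add h1 (h3.mul_right y)
  choose! a ha using hdvd
  have hprod : ∏ η ∈ μ, a η = ε * (π ^ m * w) ^ p := by
    have h := D.prim.pow_add_pow_eq_prod_add_mul x y (hp.odd_of_ne_two (by omega))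
    rw [eq, prod_congr rfl ha, prod_mul_distrib, prod_const, D.prim.card_nthRootsFinset] at h
    apply mul_left_cancel₀ (pow_ne_zero p hπ.ne_zero)
    rw [← h, pow_succ, mul_pow, mul_pow, mul_pow]
    ring
  have hcop : ∀ η₁ ∈ μ, ∀ η₂ ∈ μ, η₁ ≠ η₂ → IsCoprime (a η₁) (a η₂) := by
    intro η₁ h1 η₂ h2 hne
    obtain ⟨u, hu⟩ := D.prim.nthRootsFinset_pairwise_associated_sub_one_sub_of_prime hp h1 h2 hne
    have e1 : a η₁ - a η₂ = u * y := by
      apply mul_left_cancel₀ hπ.ne_zero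
      rw [mul_sub, ← ha _ h1, ← ha _ h2, ← mul_assoc, hu]
      ring
    have e2 : η₁ * a η₂ - η₂ * a η₁ = u * x := by
      apply mul_left_cancel₀ hπ.ne_zero
      have : π * (η₁ * a η₂ - η₂ * a η₁) = η₁ * (π * a η₂) - η₂ * (π * a η₁) := by ring
      rw [this, ← ha _ h1, ← ha _ h2, ← mul_assoc, hu]
      ring
    obtain ⟨r, s, hrs⟩ := cop
    have hu1 : ((u⁻¹ : Rˣ) : R) * u = 1 := by simp
    refine ⟨((u⁻¹ : Rˣ) : R) * (s - r * η₂), ((u⁻¹ : Rˣ) : R) * (r * η₁ - s), ?_⟩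
    linear_combination (((u⁻¹ : Rˣ) : R) * r) * e2 + (((u⁻¹ : Rˣ) : R) * s) * e1 +
      (r * x + s * y) * hu1 + hrs
  have hπa1 : π ∣ a 1 := by
    have h3 := ha 1 hμ1
    rw [one_mul] at h3
    rw [h3, pow_two] at h2
    exact (mul_dvd_mul_iff_left hπ.ne_zero).1 h2
  have hndvd : ∀ η ∈ μ, η ≠ 1 → ¬ π ∣ a η := by
    intro η hη hne h
    exact hπ.not_isUnit ((hcop η hη 1 hμ1 hne).isUnit_of_dvd' h hπa1)
  have hm : 1 ≤ m := by
    by_contra hm0
    have hm0 : m = 0 := by omega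
    subst hm0
    have h3 : π ∣ ∏ η ∈ μ, a η := hπa1.trans (dvd_prod_of_mem a hμ1)
    rw [hprod, pow_zero, one_mul] at h3
    rcases hπ.dvd_or_dvd h3 with h4 | h4
    · exact hπ.not_isUnit (isUnit_of_dvd_unit h4 ε.isUnit)
    · exact hw (hπ.dvd_of_dvd_pow h4)
  refine ⟨hm, ?_⟩
  -- every `a η` is a `p`-th power up to a unit
  have hpow : ∀ η ∈ μ, ∃ d, Associated (d ^ p) (a η) := by
    intro η hη
    have h3 : a η * ∏ η' ∈ μ.erase η, a η' = ε * (π ^ m * w) ^ p := by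
      rw [mul_prod_erase μ a hη, hprod]
    have h4 : IsCoprime (a η) (∏ η' ∈ μ.erase η, a η') :=
      IsCoprime.prod_right fun η' hη' =>
        hcop η hη η' (mem_of_mem_erase hη') (ne_of_mem_erase hη').symm
    exact exists_associated_pow_of_associated_pow_mul h4 (c := π ^ m * w)
      ⟨ε, by rw [h3]; ring⟩
  -- the special treatment of `a 1`
  have hrest : ¬ π ∣ ∏ η' ∈ μ.erase 1, a η' := by
    intro h
    obtain ⟨η, hη, h5⟩ := hπ.exists_mem_finset_dvd h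
    exact hndvd η (mem_of_mem_erase hη) (ne_of_mem_erase hη) h5
  have h3 : a 1 * ∏ η' ∈ μ.erase 1, a η' = ε * (π ^ m * w) ^ p := by
    rw [mul_prod_erase μ a hμ1, hprod]
  have h4 : π ^ (m * p) ∣ a 1 := by
    apply hπ.pow_dvd_of_dvd_mul_right (m * p) hrest
    rw [h3]
    exact ⟨ε * w ^ p, by rw [mul_pow, ← pow_mul]; ring⟩
  obtain ⟨a1', ha1'⟩ := h4
  have h5 : a1' * ∏ η' ∈ μ.erase 1, a η' = ε * w ^ p := by
    apply mul_left_cancel₀ (pow_ne_zero (m * p) hπ.ne_zero)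
    rw [← mul_assoc, ← ha1', h3, mul_pow, ← pow_mul]
    ring
  have h6 : IsCoprime a1' (∏ η' ∈ μ.erase 1, a η') := by
    have h7 : IsCoprime (a 1) (∏ η' ∈ μ.erase 1, a η') :=
      IsCoprime.prod_right fun η' hη' =>
        hcop 1 hμ1 η' (mem_of_mem_erase hη') (ne_of_mem_erase hη').symm
    rw [ha1'] at h7
    exact h7.of_mul_left_right
  obtain ⟨d0, u0, hd0⟩ := exists_associated_pow_of_associated_pow_mul h6 (c := w) (k := p)
    ⟨ε, by rw [h5]; ring⟩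
  have hd0π : ¬ π ∣ d0 := by
    intro h
    have h8 : π ∣ ε * w ^ p := by
      rw [← h5, ← hd0]
      exact ((h.trans (dvd_pow_self d0 hp.ne_zero)).mul_right _).mul_right _
    rcases hπ.dvd_or_dvd h8 with h9 | h9
    · exact hπ.not_isUnit (isUnit_of_dvd_unit h9 ε.isUnit)
    · exact hw (hπ.dvd_of_dvd_pow h9)
  -- the roots `z` and `z⁻¹`
  have hz1 : z ≠ 1 := D.prim.ne_one hp.one_lt
  have hzz' : z * z ^ (p - 1) = 1 := by
    rw [← pow_succ', Nat.sub_add_cancel hp.one_le, D.prim.pow_eq_one]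
  have hz'1 : z ^ (p - 1) ≠ 1 := by
    intro h
    rw [h, mul_one] at hzz'
    exact hz1 hzz'
  have hzne : z ≠ z ^ (p - 1) := by
    intro h
    rw [← h, ← pow_two] at hzz'
    have := (D.prim.pow_eq_one_iff_dvd 2).1 hzz'
    have := Nat.le_of_dvd (by norm_num) this
    omega
  obtain ⟨d1, u1, hd1⟩ := hpow z hμz
  obtain ⟨d2, u2, hd2⟩ := hpow (z ^ (p - 1)) hμz'
  have hd1π : ¬ π ∣ d1 := fun h => hndvd z hμz hz1 (by
    rw [← hd1]; exact (h.trans (dvd_pow_self d1 hp.ne_zero)).mul_right _)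
  have hd2π : ¬ π ∣ d2 := fun h => hndvd _ hμz' hz'1 (by
    rw [← hd2]; exact (h.trans (dvd_pow_self d2 hp.ne_zero)).mul_right _)
  have hrel : z * a (z ^ (p - 1)) + a z = (1 + z) * a 1 := by
    apply mul_left_cancel₀ hπ.ne_zero
    have : π * (z * a (z ^ (p - 1)) + a z) = z * (π * a (z ^ (p - 1))) + π * a z := by ring
    rw [this, ← ha _ hμz', ← ha _ hμz]
    have : π * ((1 + z) * a 1) = (1 + z) * (π * a 1) := by ring
    rw [this, ← ha _ hμ1]
    linear_combination y * hzz'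
  obtain ⟨zU, hzU⟩ := D.prim.isUnit hp.ne_zero
  obtain ⟨sU, hsU⟩ : IsUnit (1 + z) := by
    have := D.prim.geom_sum_isUnit hp.two_le (j := 2)
      ((Nat.coprime_primes Nat.prime_two hp).2 (by omega))
    simpa [sum_range_succ] using this
  set ε' : Rˣ := u1⁻¹ * zU * u2 with hε'
  set ε'' : Rˣ := u1⁻¹ * sU * u0 with hε''
  have hu1 : ((u1⁻¹ : Rˣ) : R) * u1 = 1 := by simp
  have hnew : d1 ^ p + ε' * d2 ^ p = ε'' * (π ^ m * d0) ^ p := by
    rw [← hd1, ← hd2, ha1', ← hd0] at hrel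
    rw [hε', hε'', mul_pow, ← pow_mul]
    push_cast
    rw [hzU, hsU]
    linear_combination ((u1⁻¹ : Rˣ) : R) * hrel - d1 ^ p * hu1
  -- Kummer's lemma
  have hpdvd : (p : R) ∣ d1 ^ p + ε' * d2 ^ p := by
    rw [hnew, mul_pow, ← pow_mul]
    have : p - 1 ≤ m * p := (Nat.sub_le p 1).trans (Nat.le_mul_of_pos_left p hm)
    exact ((D.p_dvd_pow this).mul_right _).mul_left _
  obtain ⟨n1, hn1, -⟩ := D.pow_int_mod hp d1
  obtain ⟨n2, hn2, hn2'⟩ := D.pow_int_mod hp d2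
  have hn2p : ¬ (p : ℤ) ∣ n2 := hn2' hd2π
  have hcopn : IsCoprime n2 (p : ℤ) :=
    ((Nat.prime_iff_prime_int.1 hp).coprime_iff_not_dvd.2 hn2p).symm
  obtain ⟨c, e, hce⟩ := hcopn
  obtain ⟨δ, hδ⟩ := D.kummer ε' ⟨-(n1 * c), by
    obtain ⟨t1, ht1⟩ := hn1
    obtain ⟨t2, ht2⟩ := hn2
    obtain ⟨t3, ht3⟩ := hpdvd
    have hce' : (c : R) * n2 + e * p = 1 := by exact_mod_cast congrArg (Int.cast : ℤ → R) hce
    refine ⟨(ε' : R) * e + c * (t3 - ε' * t2 - t1), ?_⟩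
    push_cast
    linear_combination (-(ε' : R)) * hce' + (c : R) * ht3 - (c : R) * ε' * ht2 - (c : R) * ht1⟩
  refine ⟨d1, δ * d2, d0, ε'', ?_, hd1π, ?_, hd0π, ?_⟩
  · have h7 := hcop z hμz _ hμz' hzne
    rw [← hd1, ← hd2] at h7
    have h8 : IsCoprime d1 d2 :=
      (IsCoprime.pow_iff hp.pos hp.pos).1 h7.of_mul_left_left.of_mul_right_left
    exact (isCoprime_mul_unit_left_right δ.isUnit _ _).2 h8
  · intro h
    exact hd2π ((Units.dvd_mul_left).1 h)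
  · rw [mul_pow, ← hnew, hδ]
    push_cast
    ring

lemma geom_sum_sub_dvd (i : ℕ) : (z - 1) ∣ (∑ j ∈ range i, z ^ j) - (i : R) := by
  have : (∑ j ∈ range i, z ^ j) - (i : R) = ∑ j ∈ range i, (z ^ j - 1) := by
    rw [sum_sub_distrib]; simp
  rw [this]
  exact dvd_sum fun j _ => by simpa using sub_dvd_pow_sub_pow z 1 j

/-- Some `x + η y` is divisible by `π ^ 2`. -/
lemma exists_sq_dvd (hp : p.Prime) (hp3 : 3 ≤ p) (D : KData p R z) {m : ℕ}
    {x y w : R} {ε : Rˣ} (hy : ¬ (z - 1) ∣ y)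
    (eq : x ^ p + y ^ p = ε * ((z - 1) ^ (m + 1) * w) ^ p) :
    ∃ i : ℕ, (z - 1) ^ 2 ∣ x + z ^ i * y := by
  classical
  have hπ : Prime (z - 1) := D.prime
  have hμ1 : (1 : R) ∈ nthRootsFinset p (1 : R) := one_mem_mu hp
  have h := D.prim.pow_add_pow_eq_prod_add_mul x y (hp.odd_of_ne_two (by omega))
  have h1 : (z - 1) ∣ ∏ η ∈ nthRootsFinset p (1 : R), (x + η * y) := by
    rw [← h, eq, mul_pow, ← pow_mul]
    exact ((dvd_pow_self _ (by have := hp.pos; positivity)).mul_right _).mul_left _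
  obtain ⟨η₀, hη₀, h2⟩ := hπ.exists_mem_finset_dvd h1
  have h3 : (z - 1) ∣ x + y := by
    have h4 : (z - 1) ∣ 1 - η₀ := D.prim.sub_one_dvd_sub hp hμ1 hη₀
    have : x + y = (x + η₀ * y) + (1 - η₀) * y := by ring
    rw [this]
    exact dvd_add h2 (h4.mul_right y)
  obtain ⟨t, ht⟩ := h3
  obtain ⟨nt, hnt⟩ := D.int_mod t
  obtain ⟨ny, hny⟩ := D.int_mod y
  have hnyp : ¬ (p : ℤ) ∣ ny := by
    intro h5
    apply hy
    have : y = (y - ny) + ny := by ring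
    rw [this]
    exact dvd_add hny (D.pi_dvd_int hp h5)
  haveI : Fact p.Prime := ⟨hp⟩
  have hny0 : (ny : ZMod p) ≠ 0 := by
    rwa [Ne, ZMod.intCast_zmod_eq_zero_iff_dvd]
  set i : ℕ := (-(nt : ZMod p) / (ny : ZMod p)).val with hi
  have hi' : (p : ℤ) ∣ nt + i * ny := by
    rw [← ZMod.intCast_zmod_eq_zero_iff_dvd]
    push_cast
    rw [hi, ZMod.natCast_zmod_val]
    field_simp
    ring
  refine ⟨i, ?_⟩
  have h6 : x + z ^ i * y = (z - 1) * (t + (∑ j ∈ range i, z ^ j) * y) := by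
    rw [mul_add, ← ht, ← mul_assoc, mul_geom_sum]
    ring
  rw [h6, pow_two]
  apply mul_dvd_mul_left
  have h7 : t + (∑ j ∈ range i, z ^ j) * y =
      (t - nt) + ((∑ j ∈ range i, z ^ j) - (i : R)) * y + (i : R) * (y - ny) +
        ((nt + i * ny : ℤ) : R) := by
    push_cast; ring
  rw [h7]
  exact dvd_add (dvd_add (dvd_add hnt ((geom_sum_sub_dvd i).mul_right _)) (hny.mul_left _))
    (D.pi_dvd_int hp hi')

lemma descent [IsPrincipalIdealRing R] (hp : p.Prime) (hp3 : 3 ≤ p) (D : KData p R z) {m : ℕ}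
    (h : HasSol p z (m + 1)) : 1 ≤ m ∧ HasSol p z m := by
  obtain ⟨x, y, w, ε, cop, -, hy, hw, eq⟩ := h
  obtain ⟨i, hi⟩ := exists_sq_dvd hp hp3 D hy eq
  have hu : IsUnit (z ^ i) := (D.prim.isUnit hp.ne_zero).pow i
  refine core hp hp3 D (x := x) (y := z ^ i * y) (w := w) (ε := ε)
    ((isCoprime_mul_unit_left_right hu _ _).2 cop) hw ?_ hi
  rw [mul_pow, ← pow_mul, mul_comm i p, pow_mul, D.prim.pow_eq_one, one_pow, one_mul, eq]

lemma no_sol [IsPrincipalIdealRing R] (hp : p.Prime) (hp3 : 3 ≤ p) (D : KData p R z) (m : ℕ) :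
    ¬ HasSol p z (m + 1) := by
  induction m with
  | zero => intro h; have := (descent hp hp3 D h).1; omega
  | succ m ih => intro h; exact ih (descent hp hp3 D h).2

/-- Case II of Fermat's Last Theorem, assuming `R` is a PID satisfying Kummer's lemma. -/
theorem caseII [IsPrincipalIdealRing R] [CharZero R] (hp : p.Prime) (hp3 : 3 ≤ p)
    (D : KData p R z) (a b c : ℤ) (hc : c ≠ 0) (ha : ¬ (p : ℤ) ∣ a) (hb : ¬ (p : ℤ) ∣ b)
    (hpc : (p : ℤ) ∣ c) (hab : IsCoprime a b) : a ^ p + b ^ p ≠ c ^ p := by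
  intro H
  have hc' : (c : R) ≠ 0 := by exact_mod_cast hc
  obtain ⟨n, w, hw, hcw⟩ := WfDvdMonoid.max_power_factor hc' D.prime.irreducible
  have hn : n ≠ 0 := by
    rintro rfl
    apply hw
    rw [pow_zero, one_mul] at hcw
    rw [← hcw]
    exact D.pi_dvd_int hp hpc
  obtain ⟨m, rfl⟩ := Nat.exists_eq_succ_of_ne_zero hn
  refine no_sol hp hp3 D m ⟨a, b, w, 1, ?_, fun h => ha (D.dvd_int a h), fun h => hb (D.dvd_int b h),
    hw, ?_⟩
  · exact hab.map (Int.castRingHom R)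
  · rw [← hcw, Units.val_one, one_mul]
    exact_mod_cast congrArg (Int.cast : ℤ → R) H

end core

end FLTSmall
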