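import Fermat.Agent.FLTSmall.Kummer

/-!
# The ring of integers of `ℚ(ζ_p)` as a `KBase`, and the index of `p`-th powers of units
-/

open NumberField Finset

namespace FLTSmall

section group

lemma card_quot_pow_le {G : Type*} [CommGroup G] {ι : Type*} [Fintype ι] (g : ι → G)
    (hg : ∀ x : G, ∃ e : ι → ℤ, x = ∏ i, g i ^ e i) (p : ℕ) [NeZero p] :
    Finite (G ⧸ (powMonoidHom p : G →* G).range) ∧
      Nat.card (G ⧸ (powMonoidHom p : G →* G).range) ≤ p ^ Fintype.card ι := by
  classical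
  have hp0 : (0 : ℤ) < p := by exact_mod_cast Nat.pos_of_ne_zero (NeZero.ne p)
  let f : (ι → Fin p) → G ⧸ (powMonoidHom p : G →* G).range :=
    fun e => QuotientGroup.mk (∏ i, g i ^ ((e i : ℕ) : ℤ))
  have hf : Function.Surjective f := by
    intro q
    obtain ⟨x, rfl⟩ := QuotientGroup.mk_surjective q
    obtain ⟨e, rfl⟩ := hg x
    refine ⟨fun i => ⟨(e i % p).toNat, ?_⟩, ?_⟩
    · have h1 := Int.emod_lt_of_pos (e i) hp0
      have h2 := Int.emod_nonneg (e i) hp0.ne'
      omega
    · simp only [f]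
      rw [QuotientGroup.eq]
      refine ⟨∏ i, g i ^ (e i / p), ?_⟩
      simp only [powMonoidHom_apply]
      rw [← prod_pow, ← prod_inv_distrib, ← prod_mul_distrib]
      refine prod_congr rfl fun i _ => ?_
      have h2 := Int.emod_nonneg (e i) hp0.ne'
      rw [Int.toNat_of_nonneg h2, ← zpow_natCast, ← zpow_mul, ← zpow_neg, ← zpow_add]
      congr 1
      have := Int.emod_add_mul_ediv (e i) p
      linarith
  refine ⟨Finite.of_surjective f hf, ?_⟩
  have := Nat.card_le_card_of_surjective f hf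
  simpa using this

lemma index_pow_dvd {G : Type*} [CommGroup G] {ι : Type*} [Fintype ι] (g : ι → G)
    (hg : ∀ x : G, ∃ e : ι → ℤ, x = ∏ i, g i ^ e i) (p : ℕ) [hp : Fact p.Prime] :
    (powMonoidHom p : G →* G).range.index ∣ p ^ Fintype.card ι := by
  haveI : NeZero p := ⟨hp.out.ne_zero⟩
  obtain ⟨hfin, hle⟩ := card_quot_pow_le g hg p
  have hP : IsPGroup p (G ⧸ (powMonoidHom p : G →* G).range) := by
    intro q
    obtain ⟨x, rfl⟩ := QuotientGroup.mk_surjective q
    refine ⟨1, ?_⟩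
    rw [pow_one, ← QuotientGroup.mk_pow, QuotientGroup.eq_one_iff]
    exact ⟨x, rfl⟩
  obtain ⟨n, hn⟩ := IsPGroup.iff_card.1 hP
  rw [Subgroup.index, hn]
  rw [hn] at hle
  exact pow_dvd_pow p ((Nat.pow_le_pow_iff_right hp.out.one_lt).1 hle)

end group

variable {p : ℕ} [hp : Fact p.Prime] {K : Type*} [Field K] [NumberField K]
  [IsCyclotomicExtension {p} ℚ K] {ζ : K} (hζ : IsPrimitiveRoot ζ p)

theorem kbase : KBase p (𝓞 K) hζ.toInteger where
  prim := hζ.toInteger_isPrimitiveRoot
  prime := hζ.zeta_sub_one_prime'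
  assoc := IsCyclotomicExtension.Rat.associated_zeta_sub_one_pow_prime p hζ
  int_mod := by
    intro x
    have hx : x ∈ Algebra.adjoin ℤ {hζ.toInteger} := by
      rw [IsCyclotomicExtension.Rat.adjoin_singleton_eq_top hζ]; trivial
    induction hx using Algebra.adjoin_induction with
    | mem x hx =>
      rw [Set.mem_singleton_iff] at hx
      exact ⟨1, by simp [hx]⟩
    | algebraMap r => exact ⟨r, by simp⟩
    | add x y _ _ hx hy =>
      obtain ⟨n, hn⟩ := hx
      obtain ⟨m, hm⟩ := hy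
      refine ⟨n + m, ?_⟩
      have : x + y - ((n + m : ℤ) : 𝓞 K) = (x - n) + (y - m) := by push_cast; ring
      rw [this]
      exact dvd_add hn hm
    | mul x y _ _ hx hy =>
      obtain ⟨n, hn⟩ := hx
      obtain ⟨m, hm⟩ := hy
      refine ⟨n * m, ?_⟩
      have : x * y - ((n * m : ℤ) : 𝓞 K) = (x - n) * y + n * (y - m) := by push_cast; ring
      rw [this]
      exact dvd_add (hn.mul_right _) (hm.mul_left _)
  dvd_int := fun n h => (IsCyclotomicExtension.Rat.zeta_sub_one_dvd_intCast_iff' p hζ).1 h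

omit [IsCyclotomicExtension {p} ℚ K] in
theorem index_units_pow_dvd :
    (powMonoidHom p : (𝓞 K)ˣ →* (𝓞 K)ˣ).range.index ∣ p ^ (Units.rank K + 1) := by
  classical
  obtain ⟨t0, ht0⟩ := IsCyclic.exists_generator (α := Units.torsion K)
  let g : Option (Fin (Units.rank K)) → (𝓞 K)ˣ := fun o =>
    match o with
    | none => (t0 : (𝓞 K)ˣ)
    | some i => Units.fundSystem K i
  have hg : ∀ x : (𝓞 K)ˣ, ∃ e : Option (Fin (Units.rank K)) → ℤ, x = ∏ i, g i ^ e i := by
    intro x
    obtain ⟨⟨t, e⟩, hx, -⟩ := Units.exist_unique_eq_mul_prod K x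
    obtain ⟨k, hk⟩ := Subgroup.mem_zpowers_iff.1 (ht0 t)
    refine ⟨fun o => match o with
      | none => k
      | some i => e i, ?_⟩
    rw [Fintype.prod_option]
    simp only [g]
    rw [hx, ← hk]
    simp
  have := index_pow_dvd g hg p
  simpa using this

theorem rank_add_one (hp3 : 3 ≤ p) : Units.rank K + 1 = (p - 1) / 2 := by
  have h1 := InfinitePlace.card_eq_nrRealPlaces_add_nrComplexPlaces K
  rw [IsCyclotomicExtension.Rat.nrRealPlaces_eq_zero (n := p) K (by omega),
    IsCyclotomicExtension.Rat.nrComplexPlaces_eq_totient_div_two p K,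
    Nat.totient_prime hp.out] at h1
  rw [Units.rank, h1]
  omega

theorem index_units_pow_dvd' (hp3 : 3 ≤ p) :
    (powMonoidHom p : (𝓞 K)ˣ →* (𝓞 K)ˣ).range.index ∣ p ^ ((p - 1) / 2) := by
  rw [← rank_add_one (K := K) hp3]
  exact index_units_pow_dvd

end FLTSmall
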