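import Fermat.Agent.FLTSmall.CaseII

/-!
# Kummer's lemma from an index count (abstract part)
-/

open Polynomial Finset

namespace FLTSmall

variable {p : ℕ} {R : Type*} [CommRing R] {z : R}

/-- Units congruent to a rational integer modulo `π ^ k`. -/
def SK (B : KBase p R z) (hp : p.Prime) (k : ℕ) : Subgroup Rˣ where
  carrier := {u | ∃ n : ℤ, (z - 1) ^ k ∣ (u : R) - (n : R)}
  one_mem' := ⟨1, by simp⟩
  mul_mem' := by
    rintro u v ⟨n, a, ha⟩ ⟨m, b, hb⟩
    refine ⟨n * m, a * v + n * b, ?_⟩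
    push_cast
    linear_combination (v : R) * ha + (n : R) * hb
  inv_mem' := by
    rintro u ⟨n, hn⟩
    rcases Nat.eq_zero_or_pos k with rfl | hk
    · exact ⟨0, by simp⟩
    have hnp : ¬ (p : ℤ) ∣ n := by
      intro h
      have h1 : (z - 1) ∣ (u : R) := by
        have : (u : R) = ((u : R) - n) + n := by ring
        rw [this]
        exact dvd_add ((dvd_pow_self _ hk.ne').trans hn) (B.pi_dvd_int hp h)
      exact B.prime.not_isUnit (isUnit_of_dvd_unit h1 u.isUnit)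
    have hcop : IsCoprime n ((p : ℤ) ^ k) :=
      (((Nat.prime_iff_prime_int.1 hp).coprime_iff_not_dvd.2 hnp).symm).pow_right
    obtain ⟨a, b, hab⟩ := hcop
    obtain ⟨c, hc⟩ := hn
    obtain ⟨d, hd⟩ : (z - 1) ^ k ∣ (p : R) ^ k := pow_dvd_pow_of_dvd (B.pi_dvd_p hp) k
    have hab' : (a : R) * n + b * (p : R) ^ k = 1 := by
      exact_mod_cast congrArg (Int.cast : ℤ → R) hab
    have hu : ((u⁻¹ : Rˣ) : R) * u = 1 := by simp
    refine ⟨a, ((u⁻¹ : Rˣ) : R) * (b * d - a * c), ?_⟩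
    linear_combination (a : R) * hu - ((u⁻¹ : Rˣ) : R) * hab' - ((u⁻¹ : Rˣ) : R) * a * hc
      + ((u⁻¹ : Rˣ) : R) * b * hd

lemma mem_SK (B : KBase p R z) (hp : p.Prime) (k : ℕ) (u : Rˣ) :
    u ∈ SK B hp k ↔ ∃ n : ℤ, (z - 1) ^ k ∣ (u : R) - (n : R) := Iff.rfl

lemma SK_anti (B : KBase p R z) (hp : p.Prime) {k l : ℕ} (h : k ≤ l) : SK B hp l ≤ SK B hp k := by
  rintro u ⟨n, hn⟩
  exact ⟨n, (pow_dvd_pow _ h).trans hn⟩

lemma pow_le_SK (B : KBase p R z) (hp : p.Prime) {k : ℕ} (hk : k ≤ p - 1) :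
    (powMonoidHom p : Rˣ →* Rˣ).range ≤ SK B hp k := by
  rintro _ ⟨v, rfl⟩
  obtain ⟨n, hn, -⟩ := B.pow_int_mod hp (v : R)
  refine ⟨n, ?_⟩
  have : (z - 1) ^ k ∣ (p : R) := (pow_dvd_pow _ hk).trans B.assoc.dvd
  simpa using this.trans hn

/-- Criterion for a unit to lie in `S_k` but not in `S_{k+1}`. -/
lemma mem_SK_not_mem [IsDomain R] (B : KBase p R z) (hp : p.Prime) {k : ℕ} (hk1 : 1 ≤ k) (hk : k + 1 ≤ p - 1)
    (v : Rˣ) (c0 ck : ℤ) (s t : R)
    (h : (v : R) = c0 + p * s + ck * (z - 1) ^ k + (z - 1) ^ (k + 1) * t)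
    (hck : ¬ (p : ℤ) ∣ ck) : v ∈ SK B hp k ∧ v ∉ SK B hp (k + 1) := by
  have hp1 : (z - 1) ^ (k + 1) ∣ (p : R) := (pow_dvd_pow _ hk).trans B.assoc.dvd
  constructor
  · refine ⟨c0, ?_⟩
    have : (v : R) - c0 = p * s + ck * (z - 1) ^ k + (z - 1) ^ (k + 1) * t := by rw [h]; ring
    rw [this]
    refine dvd_add (dvd_add ?_ (dvd_mul_left _ _)) ((pow_dvd_pow _ (Nat.le_succ k)).mul_right _)
    exact ((pow_dvd_pow _ (Nat.le_succ k)).trans hp1).mul_right _
  · rintro ⟨n, hn⟩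
    have h1 : (z - 1) ^ (k + 1) ∣ ((c0 - n : ℤ) : R) + ck * (z - 1) ^ k := by
      have : ((c0 - n : ℤ) : R) + ck * (z - 1) ^ k =
          ((v : R) - n) - p * s - (z - 1) ^ (k + 1) * t := by rw [h]; push_cast; ring
      rw [this]
      exact dvd_sub (dvd_sub hn (hp1.mul_right _)) (dvd_mul_right _ _)
    have h2 : (z - 1) ∣ ((c0 - n : ℤ) : R) := by
      have h3 : (z - 1) ∣ ((c0 - n : ℤ) : R) + ck * (z - 1) ^ k :=
        (dvd_pow_self _ (Nat.succ_ne_zero k)).trans h1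
      exact (dvd_add_left ((dvd_pow_self _ (by omega)).mul_left _)).1 h3
    have h4 : (z - 1) ^ (k + 1) ∣ ((c0 - n : ℤ) : R) :=
      hp1.trans (KBase.p_dvd_int (B.dvd_int _ h2))
    have h5 : (z - 1) ^ (k + 1) ∣ (ck : R) * (z - 1) ^ k := (dvd_add_right h4).1 h1
    rw [pow_succ, mul_comm (ck : R)] at h5
    have h6 : (z - 1) ∣ (ck : R) :=
      (mul_dvd_mul_iff_left (pow_ne_zero k B.prime.ne_zero)).1 h5
    exact hck (B.dvd_int _ h6)

/-- One step of the chain. -/
lemma index_step {G : Type*} [Group G] {A B : Subgroup G} (hp : p.Prime) {d : ℕ}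
    (hAB : A ≤ B) (hA : A.index ∣ p ^ d) {x : G} (hxB : x ∈ B) (hxA : x ∉ A) :
    p * B.index ∣ A.index := by
  have h1 := Subgroup.relIndex_mul_index hAB
  have h2 : A.relIndex B ∣ p ^ d := (Dvd.intro _ h1).trans hA
  obtain ⟨j, -, hj⟩ := (Nat.dvd_prime_pow hp).1 h2
  have hj0 : j ≠ 0 := by
    rintro rfl
    rw [pow_zero, Subgroup.relIndex_eq_one] at hj
    exact hxA (hj hxB)
  rw [← h1, hj]
  exact mul_dvd_mul_right (dvd_pow_self p hj0) _

/-- Kummer's lemma from the index bound and explicit units. -/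
theorem kummer_of_chain [IsDomain R] (B : KBase p R z) (hp : p.Prime) (d : ℕ)
    (hidx : (powMonoidHom p : Rˣ →* Rˣ).range.index ∣ p ^ d) (ks : Finset ℕ)
    (hks : ∀ k ∈ ks, k + 1 ≤ p - 1 ∧ ∃ v : Rˣ, v ∈ SK B hp k ∧ v ∉ SK B hp (k + 1))
    (hcard : d ≤ ks.card) (u : Rˣ) (hu : ∃ n : ℤ, (p : R) ∣ (u : R) - (n : R)) :
    ∃ v : Rˣ, u = v ^ p := by
  classical
  have hidxK : ∀ K, K ≤ p - 1 → (SK B hp K).index ∣ p ^ d := fun K hK =>
    (Subgroup.index_dvd_of_le (pow_le_SK B hp hK)).trans hidx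
  have key : ∀ K, K ≤ p - 1 → p ^ (ks.filter (· < K)).card ∣ (SK B hp K).index := by
    intro K
    induction K with
    | zero => intro _; simp
    | succ K ih =>
      intro hK
      have ih' := ih (by omega)
      by_cases hKs : K ∈ ks
      · obtain ⟨-, v, hv1, hv2⟩ := hks K hKs
        have h1 : ks.filter (· < K + 1) = insert K (ks.filter (· < K)) := by
          ext x
          simp only [mem_filter, mem_insert]
          constructor
          · rintro ⟨h2, h3⟩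
            rcases Nat.lt_succ_iff_lt_or_eq.1 h3 with h4 | h4
            · exact Or.inr ⟨h2, h4⟩
            · exact Or.inl h4
          · rintro (rfl | ⟨h2, h3⟩)
            · exact ⟨hKs, Nat.lt_succ_self _⟩
            · exact ⟨h2, Nat.lt_succ_of_lt h3⟩
        rw [h1, card_insert_of_notMem (by simp), pow_succ']
        exact (mul_dvd_mul_left p ih').trans
          (index_step hp (SK_anti B hp (Nat.le_succ K)) (hidxK _ hK) hv1 hv2)
      · have h1 : ks.filter (· < K + 1) = ks.filter (· < K) := by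
          ext x
          simp only [mem_filter]
          constructor
          · rintro ⟨h2, h3⟩
            refine ⟨h2, ?_⟩
            rcases Nat.lt_succ_iff_lt_or_eq.1 h3 with h4 | h4
            · exact h4
            · exact absurd (h4 ▸ h2) hKs
          · rintro ⟨h2, h3⟩
            exact ⟨h2, Nat.lt_succ_of_lt h3⟩
        rw [h1]
        exact ih'.trans (Subgroup.index_dvd_of_le (SK_anti B hp (Nat.le_succ K)))
  have hfil : ks.filter (· < p - 1) = ks := by
    apply filter_true_of_mem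
    intro k hk
    have := (hks k hk).1
    omega
  have h1 : p ^ d ∣ (SK B hp (p - 1)).index := by
    have := key (p - 1) le_rfl
    rw [hfil] at this
    exact (pow_dvd_pow p hcard).trans this
  have h2 := Subgroup.relIndex_mul_index (pow_le_SK B hp (le_refl (p - 1)))
  have h3 : (SK B hp (p - 1)).index = p ^ d := Nat.dvd_antisymm (hidxK _ le_rfl) h1
  have h4 : (powMonoidHom p : Rˣ →* Rˣ).range.index = p ^ d :=
    Nat.dvd_antisymm hidx (h3 ▸ Subgroup.index_dvd_of_le (pow_le_SK B hp (le_refl (p - 1))))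
  rw [h3, h4] at h2
  have h5 : (powMonoidHom p : Rˣ →* Rˣ).range.relIndex (SK B hp (p - 1)) = 1 := by
    have hpos : 0 < p ^ d := pow_pos hp.pos d
    exact Nat.eq_of_mul_eq_mul_right hpos (by rw [h2, one_mul])
  rw [Subgroup.relIndex_eq_one] at h5
  obtain ⟨n, hn⟩ := hu
  obtain ⟨v, hv⟩ := h5 (show u ∈ SK B hp (p - 1) from ⟨n, B.assoc.dvd.trans hn⟩)
  exact ⟨v, hv.symm⟩

end FLTSmall
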