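import Fermat.Agent.FLTSmall.Kummer

/-! # Explicit units for Kummer's lemma (generated) -/

namespace FLTSmall

variable {R : Type*} [CommRing R] {z : R}

theorem units_five [IsDomain R] (B : KBase 5 R z) (hp : Nat.Prime 5) :
    ∀ k ∈ ({1, 2} : Finset ℕ), k + 1 ≤ 5 - 1 ∧ ∃ v : Rˣ, v ∈ SK B hp k ∧ v ∉ SK B hp (k + 1) := by
  have hΦ : 1 + z + z ^ 2 + z ^ 3 + z ^ 4 = 0 := by
    have := B.prim.geom_sum_eq_zero (by norm_num)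
    simpa [Finset.sum_range_succ] using this
  intro k hk
  simp only [Finset.mem_insert, Finset.mem_singleton] at hk
  rcases hk with rfl | rfl
  · refine ⟨by norm_num, Units.mkOfMulEqOne (1 * z ^ 3)
      (1 * z ^ 2)
      (by linear_combination ((-1) + 1 * z) * hΦ), ?_⟩
    exact mem_SK_not_mem B hp (by norm_num) (by norm_num) _ (1) (3)
      (0)
      (3 + 1 * (z - 1))
      (by simp only [Units.val_mkOfMulEqOne]; push_cast; ring) (by norm_num)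
  · refine ⟨by norm_num, Units.mkOfMulEqOne (1 + 1 * z ^ 2 + 1 * z ^ 3)
      (1 * z ^ 2 + 1 * z ^ 3)
      (by linear_combination ((-1) + 1 * z + 1 * z ^ 2) * hΦ), ?_⟩
    exact mem_SK_not_mem B hp (by norm_num) (by norm_num) _ (3) (4)
      (1 * (z - 1))
      (1)
      (by simp only [Units.val_mkOfMulEqOne]; push_cast; ring) (by norm_num)

theorem units_seven [IsDomain R] (B : KBase 7 R z) (hp : Nat.Prime 7) :
    ∀ k ∈ ({1, 2, 4} : Finset ℕ), k + 1 ≤ 7 - 1 ∧ ∃ v : Rˣ, v ∈ SK B hp k ∧ v ∉ SK B hp (k + 1) := by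
  have hΦ : 1 + z + z ^ 2 + z ^ 3 + z ^ 4 + z ^ 5 + z ^ 6 = 0 := by
    have := B.prim.geom_sum_eq_zero (by norm_num)
    simpa [Finset.sum_range_succ] using this
  intro k hk
  simp only [Finset.mem_insert, Finset.mem_singleton] at hk
  rcases hk with rfl | rfl | rfl
  · refine ⟨by norm_num, Units.mkOfMulEqOne (1 * z ^ 4)
      (1 * z ^ 3)
      (by linear_combination ((-1) + 1 * z) * hΦ), ?_⟩
    exact mem_SK_not_mem B hp (by norm_num) (by norm_num) _ (1) (4)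
      (0)
      (6 + 4 * (z - 1) + 1 * (z - 1) ^ 2)
      (by simp only [Units.val_mkOfMulEqOne]; push_cast; ring) (by norm_num)
  · refine ⟨by norm_num, Units.mkOfMulEqOne (1 + 1 * z ^ 3 + 1 * z ^ 4)
      (1 + 1 * z ^ 2 + 1 * z ^ 3 + 1 * z ^ 4 + 1 * z ^ 5)
      (by linear_combination (1 * z ^ 2 + 1 * z ^ 3) * hΦ), ?_⟩
    exact mem_SK_not_mem B hp (by norm_num) (by norm_num) _ (3) (9)
      (1 * (z - 1))
      (5 + 1 * (z - 1))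
      (by simp only [Units.val_mkOfMulEqOne]; push_cast; ring) (by norm_num)
  · refine ⟨by norm_num, Units.mkOfMulEqOne (3 + (-1) * z ^ 2 + 2 * z ^ 3 + 2 * z ^ 4 + (-1) * z ^ 5)
      (2 * z ^ 2 + 3 * z ^ 3 + 3 * z ^ 4 + 2 * z ^ 5)
      (by linear_combination ((-1) + 1 * z + 6 * z ^ 2 + 3 * z ^ 3 + (-2) * z ^ 4) * hΦ), ?_⟩
    exact mem_SK_not_mem B hp (by norm_num) (by norm_num) _ (5) (-3)
      (1 * (z - 1) + 1 * (z - 1) ^ 2)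
      ((-1))
      (by simp only [Units.val_mkOfMulEqOne]; push_cast; ring) (by norm_num)

theorem units_eleven [IsDomain R] (B : KBase 11 R z) (hp : Nat.Prime 11) :
    ∀ k ∈ ({1, 2, 4, 6, 8} : Finset ℕ), k + 1 ≤ 11 - 1 ∧ ∃ v : Rˣ, v ∈ SK B hp k ∧ v ∉ SK B hp (k + 1) := by
  have hΦ : 1 + z + z ^ 2 + z ^ 3 + z ^ 4 + z ^ 5 + z ^ 6 + z ^ 7 + z ^ 8 + z ^ 9 + z ^ 10 = 0 := by
    have := B.prim.geom_sum_eq_zero (by norm_num)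
    simpa [Finset.sum_range_succ] using this
  intro k hk
  simp only [Finset.mem_insert, Finset.mem_singleton] at hk
  rcases hk with rfl | rfl | rfl | rfl | rfl
  · refine ⟨by norm_num, Units.mkOfMulEqOne ((-1) + (-1) * z + (-1) * z ^ 2 + (-1) * z ^ 3 + (-1) * z ^ 4 + (-1) * z ^ 5 + (-1) * z ^ 6 + (-1) * z ^ 7 + (-1) * z ^ 8 + (-1) * z ^ 9)
      (1 * z)
      (by linear_combination ((-1)) * hΦ), ?_⟩
    exact mem_SK_not_mem B hp (by norm_num) (by norm_num) _ (-10) (-45)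
      (0)
      ((-120) + (-210) * (z - 1) + (-252) * (z - 1) ^ 2 + (-210) * (z - 1) ^ 3 + (-120) * (z - 1) ^ 4 + (-45) * (z - 1) ^ 5 + (-10) * (z - 1) ^ 6 + (-1) * (z - 1) ^ 7)
      (by simp only [Units.val_mkOfMulEqOne]; push_cast; ring) (by norm_num)
  · refine ⟨by norm_num, Units.mkOfMulEqOne (1 + 1 * z ^ 5 + 1 * z ^ 6)
      (1 * z ^ 2 + 1 * z ^ 5 + 1 * z ^ 6 + 1 * z ^ 9)
      (by linear_combination ((-1) + 1 * z + 1 * z ^ 2 + (-1) * z ^ 3 + 1 * z ^ 5) * hΦ), ?_⟩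
    exact mem_SK_not_mem B hp (by norm_num) (by norm_num) _ (3) (25)
      (1 * (z - 1))
      (30 + 20 * (z - 1) + 7 * (z - 1) ^ 2 + 1 * (z - 1) ^ 3)
      (by simp only [Units.val_mkOfMulEqOne]; push_cast; ring) (by norm_num)
  · refine ⟨by norm_num, Units.mkOfMulEqOne ((-1) + (-2) * z ^ 2 + (-1) * z ^ 3 + (-1) * z ^ 4 + (-1) * z ^ 7 + (-1) * z ^ 8 + (-2) * z ^ 9)
      ((-1) + (-1) * z ^ 2 + (-1) * z ^ 3 + 1 * z ^ 4 + (-1) * z ^ 5 + (-1) * z ^ 6 + 1 * z ^ 7 + (-1) * z ^ 8 + (-1) * z ^ 9)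
      (by linear_combination (3 * z ^ 2 + (-1) * z ^ 3 + 2 * z ^ 5 + (-3) * z ^ 6 + 1 * z ^ 7 + 2 * z ^ 8) * hΦ), ?_⟩
    exact mem_SK_not_mem B hp (by norm_num) (by norm_num) _ (-9) (-358)
      ((-4) * (z - 1) + (-12) * (z - 1) ^ 2 + (-24) * (z - 1) ^ 3)
      ((-329) + (-203) * (z - 1) + (-81) * (z - 1) ^ 2 + (-19) * (z - 1) ^ 3 + (-2) * (z - 1) ^ 4)
      (by simp only [Units.val_mkOfMulEqOne]; push_cast; ring) (by norm_num)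
  · refine ⟨by norm_num, Units.mkOfMulEqOne ((-5) * z ^ 2 + (-5) * z ^ 3 + (-4) * z ^ 4 + (-1) * z ^ 5 + (-1) * z ^ 6 + (-4) * z ^ 7 + (-5) * z ^ 8 + (-5) * z ^ 9)
      (8 + (-8) * z ^ 2 + 3 * z ^ 3 + 9 * z ^ 4 + (-6) * z ^ 5 + (-6) * z ^ 6 + 9 * z ^ 7 + 3 * z ^ 8 + (-8) * z ^ 9)
      (by linear_combination ((-1) + 1 * z + (-40) * z ^ 2 + 48 * z ^ 4 + 9 * z ^ 5 + (-53) * z ^ 6 + (-15) * z ^ 7 + 40 * z ^ 8) * hΦ), ?_⟩
    exact mem_SK_not_mem B hp (by norm_num) (by norm_num) _ (-30) (-589)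
      ((-15) * (z - 1) + (-43) * (z - 1) ^ 2 + (-81) * (z - 1) ^ 3 + (-104) * (z - 1) ^ 4 + (-91) * (z - 1) ^ 5)
      ((-224) + (-50) * (z - 1) + (-5) * (z - 1) ^ 2)
      (by simp only [Units.val_mkOfMulEqOne]; push_cast; ring) (by norm_num)
  · refine ⟨by norm_num, Units.mkOfMulEqOne (147 + 104 * z ^ 2 + 61 * z ^ 3 + 58 * z ^ 4 + 73 * z ^ 5 + 73 * z ^ 6 + 58 * z ^ 7 + 61 * z ^ 8 + 104 * z ^ 9)
      (7 * z ^ 2 + 26 * z ^ 3 + 46 * z ^ 4 + 56 * z ^ 5 + 56 * z ^ 6 + 46 * z ^ 7 + 26 * z ^ 8 + 7 * z ^ 9)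
      (by linear_combination ((-1) + 1 * z + 1029 * z ^ 2 + 2793 * z ^ 3 + 3668 * z ^ 4 + 3873 * z ^ 5 + 3645 * z ^ 6 + 2403 * z ^ 7 + 728 * z ^ 8) * hΦ), ?_⟩
    exact mem_SK_not_mem B hp (by norm_num) (by norm_num) _ (739) (997)
      (296 * (z - 1) + 830 * (z - 1) ^ 2 + 1515 * (z - 1) ^ 3 + 1902 * (z - 1) ^ 4 + 1659 * (z - 1) ^ 5 + 993 * (z - 1) ^ 6 + 390 * (z - 1) ^ 7)
      (104)
      (by simp only [Units.val_mkOfMulEqOne]; push_cast; ring) (by norm_num)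

theorem units_thirteen [IsDomain R] (B : KBase 13 R z) (hp : Nat.Prime 13) :
    ∀ k ∈ ({1, 2, 4, 6, 8, 10} : Finset ℕ), k + 1 ≤ 13 - 1 ∧ ∃ v : Rˣ, v ∈ SK B hp k ∧ v ∉ SK B hp (k + 1) := by
  have hΦ : 1 + z + z ^ 2 + z ^ 3 + z ^ 4 + z ^ 5 + z ^ 6 + z ^ 7 + z ^ 8 + z ^ 9 + z ^ 10 + z ^ 11 + z ^ 12 = 0 := by
    have := B.prim.geom_sum_eq_zero (by norm_num)
    simpa [Finset.sum_range_succ] using this
  intro k hk
  simp only [Finset.mem_insert, Finset.mem_singleton] at hk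
  rcases hk with rfl | rfl | rfl | rfl | rfl | rfl
  · refine ⟨by norm_num, Units.mkOfMulEqOne (1 * z ^ 7)
      (1 * z ^ 6)
      (by linear_combination ((-1) + 1 * z) * hΦ), ?_⟩
    exact mem_SK_not_mem B hp (by norm_num) (by norm_num) _ (1) (7)
      (0)
      (21 + 35 * (z - 1) + 35 * (z - 1) ^ 2 + 21 * (z - 1) ^ 3 + 7 * (z - 1) ^ 4 + 1 * (z - 1) ^ 5)
      (by simp only [Units.val_mkOfMulEqOne]; push_cast; ring) (by norm_num)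
  · refine ⟨by norm_num, Units.mkOfMulEqOne (1 + 1 * z ^ 5 + 1 * z ^ 8)
      (1 + 1 * z ^ 2 + 1 * z ^ 4 + 1 * z ^ 5 + 1 * z ^ 6 + 1 * z ^ 7 + 1 * z ^ 8 + 1 * z ^ 9 + 1 * z ^ 11)
      (by linear_combination (1 * z ^ 2 + (-1) * z ^ 3 + 1 * z ^ 4 + 1 * z ^ 5 + (-1) * z ^ 6 + 1 * z ^ 7) * hΦ), ?_⟩
    exact mem_SK_not_mem B hp (by norm_num) (by norm_num) _ (3) (38)
      (1 * (z - 1))
      (66 + 75 * (z - 1) + 57 * (z - 1) ^ 2 + 28 * (z - 1) ^ 3 + 8 * (z - 1) ^ 4 + 1 * (z - 1) ^ 5)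
      (by simp only [Units.val_mkOfMulEqOne]; push_cast; ring) (by norm_num)
  · refine ⟨by norm_num, Units.mkOfMulEqOne (1 + (-1) * z ^ 2 + (-1) * z ^ 3 + (-1) * z ^ 10 + (-1) * z ^ 11)
      (1 * z ^ 4 + 1 * z ^ 6 + 1 * z ^ 7 + 1 * z ^ 9)
      (by linear_combination ((-1) + 1 * z + 1 * z ^ 4 + (-1) * z ^ 5 + (-1) * z ^ 8) * hΦ), ?_⟩
    exact mem_SK_not_mem B hp (by norm_num) (by norm_num) _ (-3) (-540)
      ((-2) * (z - 1) + (-8) * (z - 1) ^ 2 + (-22) * (z - 1) ^ 3)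
      ((-714) + (-672) * (z - 1) + (-450) * (z - 1) ^ 2 + (-210) * (z - 1) ^ 3 + (-65) * (z - 1) ^ 4 + (-12) * (z - 1) ^ 5 + (-1) * (z - 1) ^ 6)
      (by simp only [Units.val_mkOfMulEqOne]; push_cast; ring) (by norm_num)
  · refine ⟨by norm_num, Units.mkOfMulEqOne (2 + 1 * z ^ 2 + 1 * z ^ 5 + 1 * z ^ 6 + 1 * z ^ 7 + 1 * z ^ 8 + 1 * z ^ 11)
      ((-1) + 1 * z ^ 2 + 1 * z ^ 5 + 1 * z ^ 6 + 1 * z ^ 7 + 1 * z ^ 8 + 1 * z ^ 11)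
      (by linear_combination ((-3) + 3 * z + 1 * z ^ 2 + (-1) * z ^ 3 + 1 * z ^ 4 + 2 * z ^ 7 + (-1) * z ^ 9 + 1 * z ^ 10) * hΦ), ?_⟩
    exact mem_SK_not_mem B hp (by norm_num) (by norm_num) _ (8) (498)
      (3 * (z - 1) + 10 * (z - 1) ^ 2 + 22 * (z - 1) ^ 3 + 35 * (z - 1) ^ 4 + 42 * (z - 1) ^ 5)
      (339 + 166 * (z - 1) + 55 * (z - 1) ^ 2 + 11 * (z - 1) ^ 3 + 1 * (z - 1) ^ 4)
      (by simp only [Units.val_mkOfMulEqOne]; push_cast; ring) (by norm_num)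
  · refine ⟨by norm_num, Units.mkOfMulEqOne (35 + 15 * z ^ 2 + 15 * z ^ 3 + 21 * z ^ 4 + 21 * z ^ 6 + 21 * z ^ 7 + 21 * z ^ 9 + 15 * z ^ 10 + 15 * z ^ 11)
      ((-19) + (-6) * z ^ 2 + (-6) * z ^ 3 + 15 * z ^ 4 + 15 * z ^ 6 + 15 * z ^ 7 + 15 * z ^ 9 + (-6) * z ^ 10 + (-6) * z ^ 11)
      (by linear_combination ((-666) + 666 * z + (-495) * z ^ 2 + 531 * z ^ 4 + (-216) * z ^ 5 + 315 * z ^ 6 + 90 * z ^ 7 + 189 * z ^ 8 + (-90) * z ^ 9 + (-90) * z ^ 10) * hΦ), ?_⟩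
    exact mem_SK_not_mem B hp (by norm_num) (by norm_num) _ (179) (3339)
      (72 * (z - 1) + 246 * (z - 1) ^ 2 + 561 * (z - 1) ^ 3 + 909 * (z - 1) ^ 4 + 1071 * (z - 1) ^ 5 + 924 * (z - 1) ^ 6 + 579 * (z - 1) ^ 7)
      (996 + 180 * (z - 1) + 15 * (z - 1) ^ 2)
      (by simp only [Units.val_mkOfMulEqOne]; push_cast; ring) (by norm_num)
  · refine ⟨by norm_num, Units.mkOfMulEqOne (62 + (-105) * z ^ 2 + (-46) * z ^ 3 + 60 * z ^ 4 + 31 * z ^ 5 + (-81) * z ^ 6 + (-81) * z ^ 7 + 31 * z ^ 8 + 60 * z ^ 9 + (-46) * z ^ 10 + (-105) * z ^ 11)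
      (31 + (-77) * z ^ 2 + (-136) * z ^ 3 + (-112) * z ^ 4 + (-31) * z ^ 5 + 29 * z ^ 6 + 29 * z ^ 7 + (-31) * z ^ 8 + (-112) * z ^ 9 + (-136) * z ^ 10 + (-77) * z ^ 11)
      (by linear_combination (1921 + (-1921) * z + (-8029) * z ^ 2 + (-1829) * z ^ 3 + 12859 * z ^ 4 + 13860 * z ^ 5 + (-4178) * z ^ 6 + (-15536) * z ^ 7 + (-4426) * z ^ 8 + 9737 * z ^ 9 + 8085 * z ^ 10) * hΦ), ?_⟩
    exact mem_SK_not_mem B hp (by norm_num) (by norm_num) _ (-220) (-1201)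
      ((-141) * (z - 1) + (-562) * (z - 1) ^ 2 + (-1540) * (z - 1) ^ 3 + (-2955) * (z - 1) ^ 4 + (-4074) * (z - 1) ^ 5 + (-4070) * (z - 1) ^ 6 + (-2911) * (z - 1) ^ 7 + (-1448) * (z - 1) ^ 8 + (-475) * (z - 1) ^ 9)
      ((-105))
      (by simp only [Units.val_mkOfMulEqOne]; push_cast; ring) (by norm_num)

end FLTSmall
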