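import Fermat.Agent.FLTSmall.Cyclo
import Fermat.Agent.FLTSmall.Units
import Fermat.Agent.FLTSmall.CaseI
import Fermat.Prelude.Def_FLTPrelim_FreyPackage

/-!
# Fermat's Last Theorem for an exponent `p` such that `ℤ[ζ_p]` is a PID satisfying Kummer's lemma
-/

open NumberField

namespace FLTSmall

theorem flt_of_kdata {p : ℕ} (hp : p.Prime) (hp3 : 3 ≤ p) {R : Type*} [CommRing R] [IsDomain R]
    [IsPrincipalIdealRing R] [CharZero R] {z : R} (D : KData p R z)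
    (hI : ∀ a b c : ℤ, IsCoprime a b → a ^ p + b ^ p = c ^ p → (p : ℤ) ∣ a * b * c)
    (a b c : ℤ) (ha : a ≠ 0) (hb : b ≠ 0) (hc : c ≠ 0) (hab : IsCoprime a b) :
    a ^ p + b ^ p ≠ c ^ p := by
  intro H
  have hpZ : Prime (p : ℤ) := Nat.prime_iff_prime_int.1 hp
  have hodd : Odd p := hp.odd_of_ne_two (by omega)
  have hbc : IsCoprime b c := isCoprime_of_eq hp.pos hab H
  have hac : IsCoprime a c := isCoprime_of_eq hp.pos hab.symm (by rw [add_comm]; exact H)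
  have hnot : ∀ {x y : ℤ}, IsCoprime x y → (p : ℤ) ∣ x → ¬ (p : ℤ) ∣ y := fun h h1 h2 =>
    hpZ.not_isUnit (h.isUnit_of_dvd' h1 h2)
  rcases hpZ.dvd_or_dvd (hI a b c hab H) with h | h
  · rcases hpZ.dvd_or_dvd h with h | h
    · -- `p ∣ a`
      refine caseII hp hp3 D (-c) b (-a) (neg_ne_zero.2 ha) ?_ (hnot hab h) ((dvd_neg).2 h)
        hbc.symm.neg_left ?_
      · rw [dvd_neg]; exact hnot hac h
      · rw [hodd.neg_pow, hodd.neg_pow]; linarith
    · -- `p ∣ b`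
      refine caseII hp hp3 D a (-c) (-b) (neg_ne_zero.2 hb) (hnot hab.symm h) ?_ ((dvd_neg).2 h)
        hac.neg_right ?_
      · rw [dvd_neg]; exact hnot hbc h
      · rw [hodd.neg_pow, hodd.neg_pow]; linarith
  · exact caseII hp hp3 D a b c hc (hnot hac.symm h) (hnot hbc.symm h) h hab H

theorem kdata_of_units {p : ℕ} [hp : Fact p.Prime] (hp3 : 3 ≤ p) {K : Type*} [Field K]
    [NumberField K] [IsCyclotomicExtension {p} ℚ K] {ζ : K} (hζ : IsPrimitiveRoot ζ p)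
    (ks : Finset ℕ)
    (hks : ∀ k ∈ ks, k + 1 ≤ p - 1 ∧
      ∃ v : (𝓞 K)ˣ, v ∈ SK (kbase hζ) hp.out k ∧ v ∉ SK (kbase hζ) hp.out (k + 1))
    (hcard : (p - 1) / 2 ≤ ks.card) : KData p (𝓞 K) hζ.toInteger :=
  { kbase hζ with
    kummer := kummer_of_chain (kbase hζ) hp.out ((p - 1) / 2) (index_units_pow_dvd' hp3) ks hks
      hcard }

/-- FLT for `p`, given that `ℤ[ζ_p]` is a PID, the explicit units, and case I. -/
theorem flt_of_pid {p : ℕ} [hp : Fact p.Prime] (hp3 : 3 ≤ p)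
    (K : Type) [Field K] [NumberField K] [IsCyclotomicExtension {p} ℚ K]
    (hpid : IsPrincipalIdealRing (𝓞 K))
    (ks : Finset ℕ)
    (hks : ∀ (R : Type) [CommRing R] [IsDomain R] (z : R) (B : KBase p R z), ∀ k ∈ ks,
      k + 1 ≤ p - 1 ∧ ∃ v : Rˣ, v ∈ SK B hp.out k ∧ v ∉ SK B hp.out (k + 1))
    (hcard : (p - 1) / 2 ≤ ks.card)
    (hI : ∀ a b c : ℤ, IsCoprime a b → a ^ p + b ^ p = c ^ p → (p : ℤ) ∣ a * b * c)
    (a b c : ℤ) (ha : a ≠ 0) (hb : b ≠ 0) (hc : c ≠ 0) (hab : IsCoprime a b) :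
    a ^ p + b ^ p ≠ c ^ p := by
  have hζ := IsCyclotomicExtension.zeta_spec p ℚ K
  exact flt_of_kdata hp.out hp3
    (kdata_of_units hp3 hζ ks (hks _ _ (kbase hζ)) hcard) hI a b c ha hb hc hab

theorem no_frey_of_flt (P : FreyPackage)
    (h : ∀ a b c : ℤ, a ≠ 0 → b ≠ 0 → c ≠ 0 → IsCoprime a b → a ^ P.p + b ^ P.p ≠ c ^ P.p) :
    False := by
  refine h P.a P.b P.c P.ha0 P.hb0 P.hc0 ?_ P.hFLT
  rw [Int.isCoprime_iff_gcd_eq_one]
  have := P.hgcdab
  rw [← Int.coe_gcd] at this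
  exact_mod_cast this

set_option backward.isDefEq.respectTransparency false in
theorem flt_five (a b c : ℤ) (ha : a ≠ 0) (hb : b ≠ 0) (hc : c ≠ 0) (hab : IsCoprime a b) :
    a ^ 5 + b ^ 5 ≠ c ^ 5 := by
  haveI : Fact (Nat.Prime 5) := ⟨by norm_num⟩
  exact flt_of_pid (p := 5) (by norm_num) (CyclotomicField 5 ℚ)
    (IsCyclotomicExtension.Rat.five_pid _) {1, 2}
    (fun R _ _ z B => units_five B _) (by decide)
    (fun a b c hab h => caseI (Or.inl rfl) hab h) a b c ha hb hc hab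

end FLTSmall
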