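import Fermat.Agent.FLTSmall.PIDGeneral

set_option linter.unusedSimpArgs false

namespace FLTSmall

open NumberField Ideal IsCyclotomicExtension Module
open scoped Real Nat

lemma exists_norm_eleven_23 (K : Type*) [Field K] [NumberField K] [IsCyclotomicExtension {11} ℚ K] :
    ∃ α : 𝓞 K, (Algebra.norm ℤ α).natAbs = 23 := by
  have : Fact (Nat.Prime 11) := ⟨by norm_num⟩
  have hζ := zeta_spec 11 ℚ K
  obtain ⟨z, hz⟩ : ∃ z : 𝓞 K, z = hζ.toInteger := ⟨_, rfl⟩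
  have h1 : z ^ 11 = 1 := by rw [hz]; exact hζ.toInteger_isPrimitiveRoot.pow_eq_one
  have hΦ : 1 + z + z ^ 2 + z ^ 3 + z ^ 4 + z ^ 5 + z ^ 6 + z ^ 7 + z ^ 8 + z ^ 9 + z ^ 10 = 0 := by
    have := hζ.toInteger_isPrimitiveRoot.geom_sum_eq_zero (by norm_num)
    rw [← hz] at this
    simpa [Finset.sum_range_succ] using this
  obtain ⟨σ1, hσ1⟩ := exists_algEquiv_zeta_pow 11 K hζ 1 (by norm_num)
  rw [← hz] at hσ1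
  obtain ⟨σ2, hσ2⟩ := exists_algEquiv_zeta_pow 11 K hζ 2 (by norm_num)
  rw [← hz] at hσ2
  obtain ⟨σ3, hσ3⟩ := exists_algEquiv_zeta_pow 11 K hζ 3 (by norm_num)
  rw [← hz] at hσ3
  obtain ⟨σ4, hσ4⟩ := exists_algEquiv_zeta_pow 11 K hζ 4 (by norm_num)
  rw [← hz] at hσ4
  obtain ⟨σ5, hσ5⟩ := exists_algEquiv_zeta_pow 11 K hζ 5 (by norm_num)
  rw [← hz] at hσ5
  obtain ⟨σ6, hσ6⟩ := exists_algEquiv_zeta_pow 11 K hζ 6 (by norm_num)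
  rw [← hz] at hσ6
  obtain ⟨σ7, hσ7⟩ := exists_algEquiv_zeta_pow 11 K hζ 7 (by norm_num)
  rw [← hz] at hσ7
  obtain ⟨σ8, hσ8⟩ := exists_algEquiv_zeta_pow 11 K hζ 8 (by norm_num)
  rw [← hz] at hσ8
  obtain ⟨σ9, hσ9⟩ := exists_algEquiv_zeta_pow 11 K hζ 9 (by norm_num)
  rw [← hz] at hσ9
  obtain ⟨σ10, hσ10⟩ := exists_algEquiv_zeta_pow 11 K hζ 10 (by norm_num)
  rw [← hz] at hσ10
  have c1 : σ1 (1 + z + z ^ 3) = 1 + z + z ^ 3 := by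
    simp only [map_add, map_sub, map_neg, map_one, map_pow, hσ1]
    linear_combination (0) * h1
  have c2 : σ2 (1 + z + z ^ 3) = 1 + z ^ 2 + z ^ 6 := by
    simp only [map_add, map_sub, map_neg, map_one, map_pow, hσ2]
    linear_combination (0) * h1
  have c3 : σ3 (1 + z + z ^ 3) = 1 + z ^ 3 + z ^ 9 := by
    simp only [map_add, map_sub, map_neg, map_one, map_pow, hσ3]
    linear_combination (0) * h1
  have c4 : σ4 (1 + z + z ^ 3) = 1 + z + z ^ 4 := by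
    simp only [map_add, map_sub, map_neg, map_one, map_pow, hσ4]
    linear_combination (z) * h1
  have c5 : σ5 (1 + z + z ^ 3) = 1 + z ^ 4 + z ^ 5 := by
    simp only [map_add, map_sub, map_neg, map_one, map_pow, hσ5]
    linear_combination (z ^ 4) * h1
  have c6 : σ6 (1 + z + z ^ 3) = 1 + z ^ 6 + z ^ 7 := by
    simp only [map_add, map_sub, map_neg, map_one, map_pow, hσ6]
    linear_combination (z ^ 7) * h1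
  have c7 : σ7 (1 + z + z ^ 3) = 1 + z ^ 7 + z ^ 10 := by
    simp only [map_add, map_sub, map_neg, map_one, map_pow, hσ7]
    linear_combination (z ^ 10) * h1
  have c8 : σ8 (1 + z + z ^ 3) = 1 + z ^ 2 + z ^ 8 := by
    simp only [map_add, map_sub, map_neg, map_one, map_pow, hσ8]
    linear_combination (z ^ 2 + z ^ 13) * h1
  have c9 : σ9 (1 + z + z ^ 3) = 1 + z ^ 5 + z ^ 9 := by
    simp only [map_add, map_sub, map_neg, map_one, map_pow, hσ9]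
    linear_combination (z ^ 5 + z ^ 16) * h1
  have c10 : σ10 (1 + z + z ^ 3) = 1 + z ^ 8 + z ^ 10 := by
    simp only [map_add, map_sub, map_neg, map_one, map_pow, hσ10]
    linear_combination (z ^ 8 + z ^ 19) * h1
  have e2 : (1 + z + z ^ 3) * (1 + z ^ 2 + z ^ 6) = 1 + z + z ^ 2 + 2 * z ^ 3 + z ^ 5 + z ^ 6 + z ^ 7 + z ^ 9 := by
    linear_combination (0) * h1
  have e3 : (1 + z + z ^ 2 + 2 * z ^ 3 + z ^ 5 + z ^ 6 + z ^ 7 + z ^ 9) * (1 + z ^ 3 + z ^ 9) = 2 + 4 * z + z ^ 2 + 4 * z ^ 3 + 2 * z ^ 4 + 3 * z ^ 5 + 3 * z ^ 6 + 2 * z ^ 7 + z ^ 8 + 3 * z ^ 9 + 2 * z ^ 10 := by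
    linear_combination (1 + 3 * z + z ^ 3 + z ^ 4 + z ^ 5 + z ^ 7) * h1
  have e4 : (2 + 4 * z + z ^ 2 + 4 * z ^ 3 + 2 * z ^ 4 + 3 * z ^ 5 + 3 * z ^ 6 + 2 * z ^ 7 + z ^ 8 + 3 * z ^ 9 + 2 * z ^ 10) * (1 + z + z ^ 4) = 6 + 7 * z + 8 * z ^ 2 + 7 * z ^ 3 + 8 * z ^ 4 + 9 * z ^ 5 + 7 * z ^ 6 + 9 * z ^ 7 + 5 * z ^ 8 + 7 * z ^ 9 + 8 * z ^ 10 := by
    linear_combination (4 + z + 3 * z ^ 2 + 2 * z ^ 3) * h1
  have e5 : (6 + 7 * z + 8 * z ^ 2 + 7 * z ^ 3 + 8 * z ^ 4 + 9 * z ^ 5 + 7 * z ^ 6 + 9 * z ^ 7 + 5 * z ^ 8 + 7 * z ^ 9 + 8 * z ^ 10) * (1 + z ^ 4 + z ^ 5) = 22 + 21 * z + 20 * z ^ 2 + 22 * z ^ 3 + 22 * z ^ 4 + 22 * z ^ 5 + 22 * z ^ 6 + 24 * z ^ 7 + 20 * z ^ 8 + 24 * z ^ 9 + 24 * z ^ 10 := by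
    linear_combination (16 + 14 * z + 12 * z ^ 2 + 15 * z ^ 3 + 8 * z ^ 4) * h1
  have e6 : (22 + 21 * z + 20 * z ^ 2 + 22 * z ^ 3 + 22 * z ^ 4 + 22 * z ^ 5 + 22 * z ^ 6 + 24 * z ^ 7 + 20 * z ^ 8 + 24 * z ^ 9 + 24 * z ^ 10) * (1 + z ^ 6 + z ^ 7) = 66 + 65 * z + 66 * z ^ 2 + 66 * z ^ 3 + 66 * z ^ 4 + 70 * z ^ 5 + 68 * z ^ 6 + 67 * z ^ 7 + 61 * z ^ 8 + 66 * z ^ 9 + 68 * z ^ 10 := by
    linear_combination (44 + 44 * z + 46 * z ^ 2 + 44 * z ^ 3 + 44 * z ^ 4 + 48 * z ^ 5 + 24 * z ^ 6) * h1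
  have e7 : (66 + 65 * z + 66 * z ^ 2 + 66 * z ^ 3 + 66 * z ^ 4 + 70 * z ^ 5 + 68 * z ^ 6 + 67 * z ^ 7 + 61 * z ^ 8 + 66 * z ^ 9 + 68 * z ^ 10) * (1 + z ^ 7 + z ^ 10) = 197 + 201 * z + 200 * z ^ 2 + 199 * z ^ 3 + 197 * z ^ 4 + 204 * z ^ 5 + 203 * z ^ 6 + 194 * z ^ 7 + 192 * z ^ 8 + 200 * z ^ 9 + 200 * z ^ 10 := by
    linear_combination (131 + 136 * z + 134 * z ^ 2 + 133 * z ^ 3 + 131 * z ^ 4 + 134 * z ^ 5 + 135 * z ^ 6 + 61 * z ^ 7 + 66 * z ^ 8 + 68 * z ^ 9) * h1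
  have e8 : (197 + 201 * z + 200 * z ^ 2 + 199 * z ^ 3 + 197 * z ^ 4 + 204 * z ^ 5 + 203 * z ^ 6 + 194 * z ^ 7 + 192 * z ^ 8 + 200 * z ^ 9 + 200 * z ^ 10) * (1 + z ^ 2 + z ^ 8) = 596 + 598 * z + 601 * z ^ 2 + 603 * z ^ 3 + 591 * z ^ 4 + 595 * z ^ 5 + 600 * z ^ 6 + 598 * z ^ 7 + 592 * z ^ 8 + 595 * z ^ 9 + 592 * z ^ 10 := by
    linear_combination (399 + 397 * z + 204 * z ^ 2 + 203 * z ^ 3 + 194 * z ^ 4 + 192 * z ^ 5 + 200 * z ^ 6 + 200 * z ^ 7) * h1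
  have e9 : (596 + 598 * z + 601 * z ^ 2 + 603 * z ^ 3 + 591 * z ^ 4 + 595 * z ^ 5 + 600 * z ^ 6 + 598 * z ^ 7 + 592 * z ^ 8 + 595 * z ^ 9 + 592 * z ^ 10) * (1 + z ^ 5 + z ^ 9) = 1797 + 1799 * z + 1784 * z ^ 2 + 1793 * z ^ 3 + 1783 * z ^ 4 + 1789 * z ^ 5 + 1790 * z ^ 6 + 1794 * z ^ 7 + 1787 * z ^ 8 + 1782 * z ^ 9 + 1785 * z ^ 10 := by
    linear_combination (1201 + 1201 * z + 1183 * z ^ 2 + 1190 * z ^ 3 + 1192 * z ^ 4 + 598 * z ^ 5 + 592 * z ^ 6 + 595 * z ^ 7 + 592 * z ^ 8) * h1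
  have e10 : (1797 + 1799 * z + 1784 * z ^ 2 + 1793 * z ^ 3 + 1783 * z ^ 4 + 1789 * z ^ 5 + 1790 * z ^ 6 + 1794 * z ^ 7 + 1787 * z ^ 8 + 1782 * z ^ 9 + 1785 * z ^ 10) * (1 + z ^ 8 + z ^ 10) = 5389 + 5366 * z + 5366 * z ^ 2 + 5366 * z ^ 3 + 5366 * z ^ 4 + 5366 * z ^ 5 + 5366 * z ^ 6 + 5366 * z ^ 7 + 5366 * z ^ 8 + 5366 * z ^ 9 + 5366 * z ^ 10 := by
    linear_combination (3592 + 3567 * z + 3582 * z ^ 2 + 3573 * z ^ 3 + 3583 * z ^ 4 + 3577 * z ^ 5 + 3576 * z ^ 6 + 3572 * z ^ 7 + 1782 * z ^ 8 + 1785 * z ^ 9) * h1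
  have efin : 5389 + 5366 * z + 5366 * z ^ 2 + 5366 * z ^ 3 + 5366 * z ^ 4 + 5366 * z ^ 5 + 5366 * z ^ 6 + 5366 * z ^ 7 + 5366 * z ^ 8 + 5366 * z ^ 9 + 5366 * z ^ 10 = ((23 : ℤ) : 𝓞 K) := by
    push_cast
    linear_combination (5366) * hΦ
  refine ⟨1 + z + z ^ 3, ?_⟩
  have key := natAbs_norm_eq_of_prod K (1 + z + z ^ 3) [σ1 (1 + z + z ^ 3), σ2 (1 + z + z ^ 3), σ3 (1 + z + z ^ 3), σ4 (1 + z + z ^ 3), σ5 (1 + z + z ^ 3), σ6 (1 + z + z ^ 3), σ7 (1 + z + z ^ 3), σ8 (1 + z + z ^ 3), σ9 (1 + z + z ^ 3), σ10 (1 + z + z ^ 3)]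
    (by
      intro β hβ
      simp only [List.mem_cons, List.not_mem_nil, or_false] at hβ
      rcases hβ with rfl | rfl | rfl | rfl | rfl | rfl | rfl | rfl | rfl | rfl <;> exact Algebra.norm_eq_of_algEquiv _ _)
    (23) (by
      simp only [List.prod_cons, List.prod_nil, mul_one, ← mul_assoc]
      rw [c1, c2, c3, c4, c5, c6, c7, c8, c9, c10, e2, e3, e4, e5, e6, e7, e8, e9, e10, efin])
    (by
      rw [IsCyclotomicExtension.finrank (n := 11) K (Polynomial.cyclotomic.irreducible_rat (by norm_num)),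
        Nat.totient_prime (by norm_num)]
      rfl)
  simpa using key

end FLTSmall
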