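import Fermat.Agent.FLTSmall.PIDGeneral

set_option linter.unusedSimpArgs false

namespace FLTSmall

open NumberField Ideal IsCyclotomicExtension Module
open scoped Real Nat

lemma exists_norm_thirteen_53 (K : Type*) [Field K] [NumberField K] [IsCyclotomicExtension {13} ℚ K] :
    ∃ α : 𝓞 K, (Algebra.norm ℤ α).natAbs = 53 := by
  have : Fact (Nat.Prime 13) := ⟨by norm_num⟩
  have hζ := zeta_spec 13 ℚ K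
  obtain ⟨z, hz⟩ : ∃ z : 𝓞 K, z = hζ.toInteger := ⟨_, rfl⟩
  have h1 : z ^ 13 = 1 := by rw [hz]; exact hζ.toInteger_isPrimitiveRoot.pow_eq_one
  have hΦ : 1 + z + z ^ 2 + z ^ 3 + z ^ 4 + z ^ 5 + z ^ 6 + z ^ 7 + z ^ 8 + z ^ 9 + z ^ 10 + z ^ 11 + z ^ 12 = 0 := by
    have := hζ.toInteger_isPrimitiveRoot.geom_sum_eq_zero (by norm_num)
    rw [← hz] at this
    simpa [Finset.sum_range_succ] using this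
  obtain ⟨σ1, hσ1⟩ := exists_algEquiv_zeta_pow 13 K hζ 1 (by norm_num)
  rw [← hz] at hσ1
  obtain ⟨σ2, hσ2⟩ := exists_algEquiv_zeta_pow 13 K hζ 2 (by norm_num)
  rw [← hz] at hσ2
  obtain ⟨σ3, hσ3⟩ := exists_algEquiv_zeta_pow 13 K hζ 3 (by norm_num)
  rw [← hz] at hσ3
  obtain ⟨σ4, hσ4⟩ := exists_algEquiv_zeta_pow 13 K hζ 4 (by norm_num)
  rw [← hz] at hσ4
  obtain ⟨σ5, hσ5⟩ := exists_algEquiv_zeta_pow 13 K hζ 5 (by norm_num)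
  rw [← hz] at hσ5
  obtain ⟨σ6, hσ6⟩ := exists_algEquiv_zeta_pow 13 K hζ 6 (by norm_num)
  rw [← hz] at hσ6
  obtain ⟨σ7, hσ7⟩ := exists_algEquiv_zeta_pow 13 K hζ 7 (by norm_num)
  rw [← hz] at hσ7
  obtain ⟨σ8, hσ8⟩ := exists_algEquiv_zeta_pow 13 K hζ 8 (by norm_num)
  rw [← hz] at hσ8
  obtain ⟨σ9, hσ9⟩ := exists_algEquiv_zeta_pow 13 K hζ 9 (by norm_num)
  rw [← hz] at hσ9
  obtain ⟨σ10, hσ10⟩ := exists_algEquiv_zeta_pow 13 K hζ 10 (by norm_num)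
  rw [← hz] at hσ10
  obtain ⟨σ11, hσ11⟩ := exists_algEquiv_zeta_pow 13 K hζ 11 (by norm_num)
  rw [← hz] at hσ11
  obtain ⟨σ12, hσ12⟩ := exists_algEquiv_zeta_pow 13 K hζ 12 (by norm_num)
  rw [← hz] at hσ12
  have c1 : σ1 (1 + z + z ^ 3) = 1 + z + z ^ 3 := by
    simp only [map_add, map_sub, map_neg, map_one, map_pow, hσ1]
    linear_combination (0) * h1
  have c2 : σ2 (1 + z + z ^ 3) = 1 + z ^ 2 + z ^ 6 := by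
    simp only [map_add, map_sub, map_neg, map_one, map_pow, hσ2]
    linear_combination (0) * h1
  have c3 : σ3 (1 + z + z ^ 3) = 1 + z ^ 3 + z ^ 9 := by
    simp only [map_add, map_sub, map_neg, map_one, map_pow, hσ3]
    linear_combination (0) * h1
  have c4 : σ4 (1 + z + z ^ 3) = 1 + z ^ 4 + z ^ 12 := by
    simp only [map_add, map_sub, map_neg, map_one, map_pow, hσ4]
    linear_combination (0) * h1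
  have c5 : σ5 (1 + z + z ^ 3) = 1 + z ^ 2 + z ^ 5 := by
    simp only [map_add, map_sub, map_neg, map_one, map_pow, hσ5]
    linear_combination (z ^ 2) * h1
  have c6 : σ6 (1 + z + z ^ 3) = 1 + z ^ 5 + z ^ 6 := by
    simp only [map_add, map_sub, map_neg, map_one, map_pow, hσ6]
    linear_combination (z ^ 5) * h1
  have c7 : σ7 (1 + z + z ^ 3) = 1 + z ^ 7 + z ^ 8 := by
    simp only [map_add, map_sub, map_neg, map_one, map_pow, hσ7]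
    linear_combination (z ^ 8) * h1
  have c8 : σ8 (1 + z + z ^ 3) = 1 + z ^ 8 + z ^ 11 := by
    simp only [map_add, map_sub, map_neg, map_one, map_pow, hσ8]
    linear_combination (z ^ 11) * h1
  have c9 : σ9 (1 + z + z ^ 3) = 1 + z + z ^ 9 := by
    simp only [map_add, map_sub, map_neg, map_one, map_pow, hσ9]
    linear_combination (z + z ^ 14) * h1
  have c10 : σ10 (1 + z + z ^ 3) = 1 + z ^ 4 + z ^ 10 := by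
    simp only [map_add, map_sub, map_neg, map_one, map_pow, hσ10]
    linear_combination (z ^ 4 + z ^ 17) * h1
  have c11 : σ11 (1 + z + z ^ 3) = 1 + z ^ 7 + z ^ 11 := by
    simp only [map_add, map_sub, map_neg, map_one, map_pow, hσ11]
    linear_combination (z ^ 7 + z ^ 20) * h1
  have c12 : σ12 (1 + z + z ^ 3) = 1 + z ^ 10 + z ^ 12 := by
    simp only [map_add, map_sub, map_neg, map_one, map_pow, hσ12]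
    linear_combination (z ^ 10 + z ^ 23) * h1
  have e2 : (1 + z + z ^ 3) * (1 + z ^ 2 + z ^ 6) = 1 + z + z ^ 2 + 2 * z ^ 3 + z ^ 5 + z ^ 6 + z ^ 7 + z ^ 9 := by
    linear_combination (0) * h1
  have e3 : (1 + z + z ^ 2 + 2 * z ^ 3 + z ^ 5 + z ^ 6 + z ^ 7 + z ^ 9) * (1 + z ^ 3 + z ^ 9) = 1 + 2 * z + 2 * z ^ 2 + 4 * z ^ 3 + z ^ 4 + 3 * z ^ 5 + 3 * z ^ 6 + z ^ 7 + z ^ 8 + 3 * z ^ 9 + 2 * z ^ 10 + z ^ 11 + 3 * z ^ 12 := by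
    linear_combination (z + z ^ 2 + z ^ 3 + z ^ 5) * h1
  have e4 : (1 + 2 * z + 2 * z ^ 2 + 4 * z ^ 3 + z ^ 4 + 3 * z ^ 5 + 3 * z ^ 6 + z ^ 7 + z ^ 8 + 3 * z ^ 9 + 2 * z ^ 10 + z ^ 11 + 3 * z ^ 12) * (1 + z ^ 4 + z ^ 12) = 6 + 6 * z + 7 * z ^ 2 + 8 * z ^ 3 + 5 * z ^ 4 + 8 * z ^ 5 + 6 * z ^ 6 + 6 * z ^ 7 + 5 * z ^ 8 + 8 * z ^ 9 + 6 * z ^ 10 + 5 * z ^ 11 + 5 * z ^ 12 := by
    linear_combination (5 + 4 * z + 5 * z ^ 2 + 4 * z ^ 3 + 3 * z ^ 4 + 3 * z ^ 5 + z ^ 6 + z ^ 7 + 3 * z ^ 8 + 2 * z ^ 9 + z ^ 10 + 3 * z ^ 11) * h1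
  have e5 : (6 + 6 * z + 7 * z ^ 2 + 8 * z ^ 3 + 5 * z ^ 4 + 8 * z ^ 5 + 6 * z ^ 6 + 6 * z ^ 7 + 5 * z ^ 8 + 8 * z ^ 9 + 6 * z ^ 10 + 5 * z ^ 11 + 5 * z ^ 12) * (1 + z ^ 2 + z ^ 5) = 16 + 19 * z + 19 * z ^ 2 + 19 * z ^ 3 + 17 * z ^ 4 + 22 * z ^ 5 + 17 * z ^ 6 + 21 * z ^ 7 + 19 * z ^ 8 + 19 * z ^ 9 + 19 * z ^ 10 + 19 * z ^ 11 + 17 * z ^ 12 := by
    linear_combination (10 + 13 * z + 6 * z ^ 2 + 5 * z ^ 3 + 5 * z ^ 4) * h1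
  have e6 : (16 + 19 * z + 19 * z ^ 2 + 19 * z ^ 3 + 17 * z ^ 4 + 22 * z ^ 5 + 17 * z ^ 6 + 21 * z ^ 7 + 19 * z ^ 8 + 19 * z ^ 9 + 19 * z ^ 10 + 19 * z ^ 11 + 17 * z ^ 12) * (1 + z ^ 5 + z ^ 6) = 56 + 57 * z + 57 * z ^ 2 + 57 * z ^ 3 + 53 * z ^ 4 + 55 * z ^ 5 + 52 * z ^ 6 + 59 * z ^ 7 + 57 * z ^ 8 + 55 * z ^ 9 + 58 * z ^ 10 + 58 * z ^ 11 + 55 * z ^ 12 := by
    linear_combination (40 + 38 * z + 38 * z ^ 2 + 38 * z ^ 3 + 36 * z ^ 4 + 17 * z ^ 5) * h1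
  have e7 : (56 + 57 * z + 57 * z ^ 2 + 57 * z ^ 3 + 53 * z ^ 4 + 55 * z ^ 5 + 52 * z ^ 6 + 59 * z ^ 7 + 57 * z ^ 8 + 55 * z ^ 9 + 58 * z ^ 10 + 58 * z ^ 11 + 55 * z ^ 12) * (1 + z ^ 7 + z ^ 8) = 163 + 168 * z + 173 * z ^ 2 + 169 * z ^ 3 + 166 * z ^ 4 + 171 * z ^ 5 + 165 * z ^ 6 + 170 * z ^ 7 + 170 * z ^ 8 + 169 * z ^ 9 + 172 * z ^ 10 + 168 * z ^ 11 + 163 * z ^ 12 := by
    linear_combination (107 + 111 * z + 116 * z ^ 2 + 112 * z ^ 3 + 113 * z ^ 4 + 116 * z ^ 5 + 113 * z ^ 6 + 55 * z ^ 7) * h1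
  have e8 : (163 + 168 * z + 173 * z ^ 2 + 169 * z ^ 3 + 166 * z ^ 4 + 171 * z ^ 5 + 165 * z ^ 6 + 170 * z ^ 7 + 170 * z ^ 8 + 169 * z ^ 9 + 172 * z ^ 10 + 168 * z ^ 11 + 163 * z ^ 12) * (1 + z ^ 8 + z ^ 11) = 507 + 502 * z + 509 * z ^ 2 + 510 * z ^ 3 + 500 * z ^ 4 + 513 * z ^ 5 + 503 * z ^ 6 + 502 * z ^ 7 + 505 * z ^ 8 + 505 * z ^ 9 + 508 * z ^ 10 + 500 * z ^ 11 + 497 * z ^ 12 := by
    linear_combination (344 + 334 * z + 336 * z ^ 2 + 341 * z ^ 3 + 334 * z ^ 4 + 342 * z ^ 5 + 338 * z ^ 6 + 332 * z ^ 7 + 172 * z ^ 8 + 168 * z ^ 9 + 163 * z ^ 10) * h1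
  have e9 : (507 + 502 * z + 509 * z ^ 2 + 510 * z ^ 3 + 500 * z ^ 4 + 513 * z ^ 5 + 503 * z ^ 6 + 502 * z ^ 7 + 505 * z ^ 8 + 505 * z ^ 9 + 508 * z ^ 10 + 500 * z ^ 11 + 497 * z ^ 12) * (1 + z + z ^ 9) = 1504 + 1522 * z + 1514 * z ^ 2 + 1521 * z ^ 3 + 1515 * z ^ 4 + 1518 * z ^ 5 + 1524 * z ^ 6 + 1505 * z ^ 7 + 1504 * z ^ 8 + 1517 * z ^ 9 + 1515 * z ^ 10 + 1517 * z ^ 11 + 1507 * z ^ 12 := by
    linear_combination (997 + 513 * z + 503 * z ^ 2 + 502 * z ^ 3 + 505 * z ^ 4 + 505 * z ^ 5 + 508 * z ^ 6 + 500 * z ^ 7 + 497 * z ^ 8) * h1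
  have e10 : (1504 + 1522 * z + 1514 * z ^ 2 + 1521 * z ^ 3 + 1515 * z ^ 4 + 1518 * z ^ 5 + 1524 * z ^ 6 + 1505 * z ^ 7 + 1504 * z ^ 8 + 1517 * z ^ 9 + 1515 * z ^ 10 + 1517 * z ^ 11 + 1507 * z ^ 12) * (1 + z ^ 4 + z ^ 10) = 4542 + 4552 * z + 4549 * z ^ 2 + 4552 * z ^ 3 + 4524 * z ^ 4 + 4544 * z ^ 5 + 4555 * z ^ 6 + 4541 * z ^ 7 + 4536 * z ^ 8 + 4542 * z ^ 9 + 4543 * z ^ 10 + 4544 * z ^ 11 + 4525 * z ^ 12 := by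
    linear_combination (3038 + 3030 * z + 3035 * z ^ 2 + 3031 * z ^ 3 + 1505 * z ^ 4 + 1504 * z ^ 5 + 1517 * z ^ 6 + 1515 * z ^ 7 + 1517 * z ^ 8 + 1507 * z ^ 9) * h1
  have e11 : (4542 + 4552 * z + 4549 * z ^ 2 + 4552 * z ^ 3 + 4524 * z ^ 4 + 4544 * z ^ 5 + 4555 * z ^ 6 + 4541 * z ^ 7 + 4536 * z ^ 8 + 4542 * z ^ 9 + 4543 * z ^ 10 + 4544 * z ^ 11 + 4525 * z ^ 12) * (1 + z ^ 7 + z ^ 11) = 13646 + 13645 * z + 13609 * z ^ 2 + 13638 * z ^ 3 + 13622 * z ^ 4 + 13629 * z ^ 5 + 13616 * z ^ 6 + 13625 * z ^ 7 + 13631 * z ^ 8 + 13635 * z ^ 9 + 13620 * z ^ 10 + 13610 * z ^ 11 + 13621 * z ^ 12 := by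
    linear_combination (9104 + 9093 * z + 9060 * z ^ 2 + 9086 * z ^ 3 + 9098 * z ^ 4 + 9085 * z ^ 5 + 9061 * z ^ 6 + 4542 * z ^ 7 + 4543 * z ^ 8 + 4544 * z ^ 9 + 4525 * z ^ 10) * h1
  have e12 : (13646 + 13645 * z + 13609 * z ^ 2 + 13638 * z ^ 3 + 13622 * z ^ 4 + 13629 * z ^ 5 + 13616 * z ^ 6 + 13625 * z ^ 7 + 13631 * z ^ 8 + 13635 * z ^ 9 + 13620 * z ^ 10 + 13610 * z ^ 11 + 13621 * z ^ 12) * (1 + z ^ 10 + z ^ 12) = 40929 + 40876 * z + 40876 * z ^ 2 + 40876 * z ^ 3 + 40876 * z ^ 4 + 40876 * z ^ 5 + 40876 * z ^ 6 + 40876 * z ^ 7 + 40876 * z ^ 8 + 40876 * z ^ 9 + 40876 * z ^ 10 + 40876 * z ^ 11 + 40876 * z ^ 12 := by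
    linear_combination (27283 + 27231 * z + 27267 * z ^ 2 + 27238 * z ^ 3 + 27254 * z ^ 4 + 27247 * z ^ 5 + 27260 * z ^ 6 + 27251 * z ^ 7 + 27245 * z ^ 8 + 27241 * z ^ 9 + 13610 * z ^ 10 + 13621 * z ^ 11) * h1
  have efin : 40929 + 40876 * z + 40876 * z ^ 2 + 40876 * z ^ 3 + 40876 * z ^ 4 + 40876 * z ^ 5 + 40876 * z ^ 6 + 40876 * z ^ 7 + 40876 * z ^ 8 + 40876 * z ^ 9 + 40876 * z ^ 10 + 40876 * z ^ 11 + 40876 * z ^ 12 = ((53 : ℤ) : 𝓞 K) := by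
    push_cast
    linear_combination (40876) * hΦ
  refine ⟨1 + z + z ^ 3, ?_⟩
  have key := natAbs_norm_eq_of_prod K (1 + z + z ^ 3) [σ1 (1 + z + z ^ 3), σ2 (1 + z + z ^ 3), σ3 (1 + z + z ^ 3), σ4 (1 + z + z ^ 3), σ5 (1 + z + z ^ 3), σ6 (1 + z + z ^ 3), σ7 (1 + z + z ^ 3), σ8 (1 + z + z ^ 3), σ9 (1 + z + z ^ 3), σ10 (1 + z + z ^ 3), σ11 (1 + z + z ^ 3), σ12 (1 + z + z ^ 3)]
    (by
      intro β hβ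
      simp only [List.mem_cons, List.not_mem_nil, or_false] at hβ
      rcases hβ with rfl | rfl | rfl | rfl | rfl | rfl | rfl | rfl | rfl | rfl | rfl | rfl <;> exact Algebra.norm_eq_of_algEquiv _ _)
    (53) (by
      simp only [List.prod_cons, List.prod_nil, mul_one, ← mul_assoc]
      rw [c1, c2, c3, c4, c5, c6, c7, c8, c9, c10, c11, c12, e2, e3, e4, e5, e6, e7, e8, e9, e10, e11, e12, efin])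
    (by
      rw [IsCyclotomicExtension.finrank (n := 13) K (Polynomial.cyclotomic.irreducible_rat (by norm_num)),
        Nat.totient_prime (by norm_num)]
      rfl)
  simpa using key

lemma exists_norm_thirteen_27 (K : Type*) [Field K] [NumberField K] [IsCyclotomicExtension {13} ℚ K] :
    ∃ α : 𝓞 K, (Algebra.norm ℤ α).natAbs = 27 := by
  have : Fact (Nat.Prime 13) := ⟨by norm_num⟩
  have hζ := zeta_spec 13 ℚ K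
  obtain ⟨z, hz⟩ : ∃ z : 𝓞 K, z = hζ.toInteger := ⟨_, rfl⟩
  have h1 : z ^ 13 = 1 := by rw [hz]; exact hζ.toInteger_isPrimitiveRoot.pow_eq_one
  have hΦ : 1 + z + z ^ 2 + z ^ 3 + z ^ 4 + z ^ 5 + z ^ 6 + z ^ 7 + z ^ 8 + z ^ 9 + z ^ 10 + z ^ 11 + z ^ 12 = 0 := by
    have := hζ.toInteger_isPrimitiveRoot.geom_sum_eq_zero (by norm_num)
    rw [← hz] at this
    simpa [Finset.sum_range_succ] using this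
  obtain ⟨σ1, hσ1⟩ := exists_algEquiv_zeta_pow 13 K hζ 1 (by norm_num)
  rw [← hz] at hσ1
  obtain ⟨σ2, hσ2⟩ := exists_algEquiv_zeta_pow 13 K hζ 2 (by norm_num)
  rw [← hz] at hσ2
  obtain ⟨σ3, hσ3⟩ := exists_algEquiv_zeta_pow 13 K hζ 3 (by norm_num)
  rw [← hz] at hσ3
  obtain ⟨σ4, hσ4⟩ := exists_algEquiv_zeta_pow 13 K hζ 4 (by norm_num)
  rw [← hz] at hσ4
  obtain ⟨σ5, hσ5⟩ := exists_algEquiv_zeta_pow 13 K hζ 5 (by norm_num)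
  rw [← hz] at hσ5
  obtain ⟨σ6, hσ6⟩ := exists_algEquiv_zeta_pow 13 K hζ 6 (by norm_num)
  rw [← hz] at hσ6
  obtain ⟨σ7, hσ7⟩ := exists_algEquiv_zeta_pow 13 K hζ 7 (by norm_num)
  rw [← hz] at hσ7
  obtain ⟨σ8, hσ8⟩ := exists_algEquiv_zeta_pow 13 K hζ 8 (by norm_num)
  rw [← hz] at hσ8
  obtain ⟨σ9, hσ9⟩ := exists_algEquiv_zeta_pow 13 K hζ 9 (by norm_num)
  rw [← hz] at hσ9
  obtain ⟨σ10, hσ10⟩ := exists_algEquiv_zeta_pow 13 K hζ 10 (by norm_num)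
  rw [← hz] at hσ10
  obtain ⟨σ11, hσ11⟩ := exists_algEquiv_zeta_pow 13 K hζ 11 (by norm_num)
  rw [← hz] at hσ11
  obtain ⟨σ12, hσ12⟩ := exists_algEquiv_zeta_pow 13 K hζ 12 (by norm_num)
  rw [← hz] at hσ12
  have c1 : σ1 (1 + z - z ^ 3) = 1 + z - z ^ 3 := by
    simp only [map_add, map_sub, map_neg, map_one, map_pow, hσ1]
    linear_combination (0) * h1
  have c2 : σ2 (1 + z - z ^ 3) = 1 + z ^ 2 - z ^ 6 := by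
    simp only [map_add, map_sub, map_neg, map_one, map_pow, hσ2]
    linear_combination (0) * h1
  have c3 : σ3 (1 + z - z ^ 3) = 1 + z ^ 3 - z ^ 9 := by
    simp only [map_add, map_sub, map_neg, map_one, map_pow, hσ3]
    linear_combination (0) * h1
  have c4 : σ4 (1 + z - z ^ 3) = 1 + z ^ 4 - z ^ 12 := by
    simp only [map_add, map_sub, map_neg, map_one, map_pow, hσ4]
    linear_combination (0) * h1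
  have c5 : σ5 (1 + z - z ^ 3) = 1 - z ^ 2 + z ^ 5 := by
    simp only [map_add, map_sub, map_neg, map_one, map_pow, hσ5]
    linear_combination (-z ^ 2) * h1
  have c6 : σ6 (1 + z - z ^ 3) = 1 - z ^ 5 + z ^ 6 := by
    simp only [map_add, map_sub, map_neg, map_one, map_pow, hσ6]
    linear_combination (-z ^ 5) * h1
  have c7 : σ7 (1 + z - z ^ 3) = 1 + z ^ 7 - z ^ 8 := by
    simp only [map_add, map_sub, map_neg, map_one, map_pow, hσ7]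
    linear_combination (-z ^ 8) * h1
  have c8 : σ8 (1 + z - z ^ 3) = 1 + z ^ 8 - z ^ 11 := by
    simp only [map_add, map_sub, map_neg, map_one, map_pow, hσ8]
    linear_combination (-z ^ 11) * h1
  have c9 : σ9 (1 + z - z ^ 3) = 1 - z + z ^ 9 := by
    simp only [map_add, map_sub, map_neg, map_one, map_pow, hσ9]
    linear_combination (-z - z ^ 14) * h1
  have c10 : σ10 (1 + z - z ^ 3) = 1 - z ^ 4 + z ^ 10 := by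
    simp only [map_add, map_sub, map_neg, map_one, map_pow, hσ10]
    linear_combination (-z ^ 4 - z ^ 17) * h1
  have c11 : σ11 (1 + z - z ^ 3) = 1 - z ^ 7 + z ^ 11 := by
    simp only [map_add, map_sub, map_neg, map_one, map_pow, hσ11]
    linear_combination (-z ^ 7 - z ^ 20) * h1
  have c12 : σ12 (1 + z - z ^ 3) = 1 - z ^ 10 + z ^ 12 := by
    simp only [map_add, map_sub, map_neg, map_one, map_pow, hσ12]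
    linear_combination (-z ^ 10 - z ^ 23) * h1
  have e2 : (1 + z - z ^ 3) * (1 + z ^ 2 - z ^ 6) = 1 + z + z ^ 2 - z ^ 5 - z ^ 6 - z ^ 7 + z ^ 9 := by
    linear_combination (0) * h1
  have e3 : (1 + z + z ^ 2 - z ^ 5 - z ^ 6 - z ^ 7 + z ^ 9) * (1 + z ^ 3 - z ^ 9) = 1 + 2 * z + 2 * z ^ 2 + 2 * z ^ 3 + z ^ 4 - z ^ 5 - z ^ 6 - z ^ 7 - z ^ 8 - z ^ 9 - 2 * z ^ 10 - z ^ 11 + z ^ 12 := by
    linear_combination (z + z ^ 2 + z ^ 3 - z ^ 5) * h1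
  have e4 : (1 + 2 * z + 2 * z ^ 2 + 2 * z ^ 3 + z ^ 4 - z ^ 5 - z ^ 6 - z ^ 7 - z ^ 8 - z ^ 9 - 2 * z ^ 10 - z ^ 11 + z ^ 12) * (1 + z ^ 4 - z ^ 12) = -2 - 2 * z - z ^ 2 + 2 * z ^ 3 + 3 * z ^ 4 + 2 * z ^ 5 + 2 * z ^ 6 + 2 * z ^ 7 + z ^ 8 - 2 * z ^ 10 - 3 * z ^ 11 - z ^ 12 := by
    linear_combination (-3 - 4 * z - 3 * z ^ 2 + z ^ 4 + z ^ 5 + z ^ 6 + z ^ 7 + z ^ 8 + 2 * z ^ 9 + z ^ 10 - z ^ 11) * h1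
  have e5 : (-2 - 2 * z - z ^ 2 + 2 * z ^ 3 + 3 * z ^ 4 + 2 * z ^ 5 + 2 * z ^ 6 + 2 * z ^ 7 + z ^ 8 - 2 * z ^ 10 - 3 * z ^ 11 - z ^ 12) * (1 - z ^ 2 + z ^ 5) = 2 - z - z ^ 2 + z ^ 3 + 3 * z ^ 4 - 2 * z ^ 5 - 3 * z ^ 6 - z ^ 7 + z ^ 8 + z ^ 9 - z ^ 10 - z ^ 11 + 3 * z ^ 12 := by
    linear_combination (4 + z - 2 * z ^ 2 - 3 * z ^ 3 - z ^ 4) * h1
  have e6 : (2 - z - z ^ 2 + z ^ 3 + 3 * z ^ 4 - 2 * z ^ 5 - 3 * z ^ 6 - z ^ 7 + z ^ 8 + z ^ 9 - z ^ 10 - z ^ 11 + 3 * z ^ 12) * (1 - z ^ 5 + z ^ 6) = -z + z ^ 2 + z ^ 3 - z ^ 4 - z ^ 5 - z ^ 7 - z ^ 8 - z ^ 9 + 4 * z ^ 10 + z ^ 12 := by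
    linear_combination (-2 + 2 * z ^ 2 - 4 * z ^ 4 + 3 * z ^ 5) * h1
  have e7 : (-z + z ^ 2 + z ^ 3 - z ^ 4 - z ^ 5 - z ^ 7 - z ^ 8 - z ^ 9 + 4 * z ^ 10 + z ^ 12) * (1 + z ^ 7 - z ^ 8) = 1 - 2 * z + z ^ 2 + z ^ 3 + 4 * z ^ 4 - 5 * z ^ 5 + z ^ 6 - 2 * z ^ 7 - 2 * z ^ 8 + z ^ 9 + 4 * z ^ 10 - 2 * z ^ 11 + z ^ 12 := by
    linear_combination (1 - z + 5 * z ^ 4 - 4 * z ^ 5 + z ^ 6 - z ^ 7) * h1
  have e8 : (1 - 2 * z + z ^ 2 + z ^ 3 + 4 * z ^ 4 - 5 * z ^ 5 + z ^ 6 - 2 * z ^ 7 - 2 * z ^ 8 + z ^ 9 + 4 * z ^ 10 - 2 * z ^ 11 + z ^ 12) * (1 + z ^ 8 - z ^ 11) = -5 - 2 * z - 5 * z ^ 2 + 4 * z ^ 3 + 4 * z ^ 4 + z ^ 5 + z ^ 6 - 2 * z ^ 7 - 5 * z ^ 8 + z ^ 9 + 4 * z ^ 10 - 2 * z ^ 11 + 7 * z ^ 12 := by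
    linear_combination (-6 - 6 * z ^ 2 + 3 * z ^ 3 + 6 * z ^ 5 - 4 * z ^ 8 + 2 * z ^ 9 - z ^ 10) * h1
  have e9 : (-5 - 2 * z - 5 * z ^ 2 + 4 * z ^ 3 + 4 * z ^ 4 + z ^ 5 + z ^ 6 - 2 * z ^ 7 - 5 * z ^ 8 + z ^ 9 + 4 * z ^ 10 - 2 * z ^ 11 + 7 * z ^ 12) * (1 - z + z ^ 9) = -8 + 4 * z - 2 * z ^ 2 + 7 * z ^ 3 - 5 * z ^ 4 - 2 * z ^ 5 + 4 * z ^ 6 - 5 * z ^ 7 + 4 * z ^ 8 + z ^ 9 + z ^ 10 - 11 * z ^ 11 + 13 * z ^ 12 := by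
    linear_combination (-3 + z + z ^ 2 - 2 * z ^ 3 - 5 * z ^ 4 + z ^ 5 + 4 * z ^ 6 - 2 * z ^ 7 + 7 * z ^ 8) * h1
  have e10 : (-8 + 4 * z - 2 * z ^ 2 + 7 * z ^ 3 - 5 * z ^ 4 - 2 * z ^ 5 + 4 * z ^ 6 - 5 * z ^ 7 + 4 * z ^ 8 + z ^ 9 + z ^ 10 - 11 * z ^ 11 + 13 * z ^ 12) * (1 - z ^ 4 + z ^ 10) = -2 - 2 * z + 7 * z ^ 2 - 2 * z ^ 3 - 2 * z ^ 4 - 2 * z ^ 5 + 7 * z ^ 6 - 11 * z ^ 7 - 2 * z ^ 8 + 16 * z ^ 9 - 11 * z ^ 10 - 2 * z ^ 11 + 7 * z ^ 12 := by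
    linear_combination (6 - 6 * z + 9 * z ^ 2 - 9 * z ^ 3 - 5 * z ^ 4 + 4 * z ^ 5 + z ^ 6 + z ^ 7 - 11 * z ^ 8 + 13 * z ^ 9) * h1
  have e11 : (-2 - 2 * z + 7 * z ^ 2 - 2 * z ^ 3 - 2 * z ^ 4 - 2 * z ^ 5 + 7 * z ^ 6 - 11 * z ^ 7 - 2 * z ^ 8 + 16 * z ^ 9 - 11 * z ^ 10 - 2 * z ^ 11 + 7 * z ^ 12) * (1 - z ^ 7 + z ^ 11) = -2 + 7 * z + 7 * z ^ 2 - 20 * z ^ 3 + 16 * z ^ 4 - 11 * z ^ 5 - 2 * z ^ 6 + 7 * z ^ 7 - 11 * z ^ 8 + 7 * z ^ 9 - 2 * z ^ 10 - 2 * z ^ 11 + 7 * z ^ 12 := by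
    linear_combination (9 * z - 18 * z ^ 3 + 18 * z ^ 4 - 9 * z ^ 5 - 9 * z ^ 6 + 16 * z ^ 7 - 11 * z ^ 8 - 2 * z ^ 9 + 7 * z ^ 10) * h1
  have e12 : (-2 + 7 * z + 7 * z ^ 2 - 20 * z ^ 3 + 16 * z ^ 4 - 11 * z ^ 5 - 2 * z ^ 6 + 7 * z ^ 7 - 11 * z ^ 8 + 7 * z ^ 9 - 2 * z ^ 10 - 2 * z ^ 11 + 7 * z ^ 12) * (1 - z ^ 10 + z ^ 12) = 25 - 2 * z - 2 * z ^ 2 - 2 * z ^ 3 - 2 * z ^ 4 - 2 * z ^ 5 - 2 * z ^ 6 - 2 * z ^ 7 - 2 * z ^ 8 - 2 * z ^ 9 - 2 * z ^ 10 - 2 * z ^ 11 - 2 * z ^ 12 := by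
    linear_combination (27 - 9 * z - 9 * z ^ 2 + 18 * z ^ 3 - 18 * z ^ 4 + 9 * z ^ 5 - 9 * z ^ 7 + 9 * z ^ 8 - 9 * z ^ 9 - 2 * z ^ 10 + 7 * z ^ 11) * h1
  have efin : 25 - 2 * z - 2 * z ^ 2 - 2 * z ^ 3 - 2 * z ^ 4 - 2 * z ^ 5 - 2 * z ^ 6 - 2 * z ^ 7 - 2 * z ^ 8 - 2 * z ^ 9 - 2 * z ^ 10 - 2 * z ^ 11 - 2 * z ^ 12 = ((27 : ℤ) : 𝓞 K) := by
    push_cast
    linear_combination (-2) * hΦ
  refine ⟨1 + z - z ^ 3, ?_⟩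
  have key := natAbs_norm_eq_of_prod K (1 + z - z ^ 3) [σ1 (1 + z - z ^ 3), σ2 (1 + z - z ^ 3), σ3 (1 + z - z ^ 3), σ4 (1 + z - z ^ 3), σ5 (1 + z - z ^ 3), σ6 (1 + z - z ^ 3), σ7 (1 + z - z ^ 3), σ8 (1 + z - z ^ 3), σ9 (1 + z - z ^ 3), σ10 (1 + z - z ^ 3), σ11 (1 + z - z ^ 3), σ12 (1 + z - z ^ 3)]
    (by
      intro β hβ
      simp only [List.mem_cons, List.not_mem_nil, or_false] at hβ
      rcases hβ with rfl | rfl | rfl | rfl | rfl | rfl | rfl | rfl | rfl | rfl | rfl | rfl <;> exact Algebra.norm_eq_of_algEquiv _ _)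
    (27) (by
      simp only [List.prod_cons, List.prod_nil, mul_one, ← mul_assoc]
      rw [c1, c2, c3, c4, c5, c6, c7, c8, c9, c10, c11, c12, e2, e3, e4, e5, e6, e7, e8, e9, e10, e11, e12, efin])
    (by
      rw [IsCyclotomicExtension.finrank (n := 13) K (Polynomial.cyclotomic.irreducible_rat (by norm_num)),
        Nat.totient_prime (by norm_num)]
      rfl)
  simpa using key

lemma exists_norm_thirteen_131 (K : Type*) [Field K] [NumberField K] [IsCyclotomicExtension {13} ℚ K] :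
    ∃ α : 𝓞 K, (Algebra.norm ℤ α).natAbs = 131 := by
  have : Fact (Nat.Prime 13) := ⟨by norm_num⟩
  have hζ := zeta_spec 13 ℚ K
  obtain ⟨z, hz⟩ : ∃ z : 𝓞 K, z = hζ.toInteger := ⟨_, rfl⟩
  have h1 : z ^ 13 = 1 := by rw [hz]; exact hζ.toInteger_isPrimitiveRoot.pow_eq_one
  have hΦ : 1 + z + z ^ 2 + z ^ 3 + z ^ 4 + z ^ 5 + z ^ 6 + z ^ 7 + z ^ 8 + z ^ 9 + z ^ 10 + z ^ 11 + z ^ 12 = 0 := by
    have := hζ.toInteger_isPrimitiveRoot.geom_sum_eq_zero (by norm_num)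
    rw [← hz] at this
    simpa [Finset.sum_range_succ] using this
  obtain ⟨σ1, hσ1⟩ := exists_algEquiv_zeta_pow 13 K hζ 1 (by norm_num)
  rw [← hz] at hσ1
  obtain ⟨σ2, hσ2⟩ := exists_algEquiv_zeta_pow 13 K hζ 2 (by norm_num)
  rw [← hz] at hσ2
  obtain ⟨σ3, hσ3⟩ := exists_algEquiv_zeta_pow 13 K hζ 3 (by norm_num)
  rw [← hz] at hσ3
  obtain ⟨σ4, hσ4⟩ := exists_algEquiv_zeta_pow 13 K hζ 4 (by norm_num)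
  rw [← hz] at hσ4
  obtain ⟨σ5, hσ5⟩ := exists_algEquiv_zeta_pow 13 K hζ 5 (by norm_num)
  rw [← hz] at hσ5
  obtain ⟨σ6, hσ6⟩ := exists_algEquiv_zeta_pow 13 K hζ 6 (by norm_num)
  rw [← hz] at hσ6
  obtain ⟨σ7, hσ7⟩ := exists_algEquiv_zeta_pow 13 K hζ 7 (by norm_num)
  rw [← hz] at hσ7
  obtain ⟨σ8, hσ8⟩ := exists_algEquiv_zeta_pow 13 K hζ 8 (by norm_num)
  rw [← hz] at hσ8
  obtain ⟨σ9, hσ9⟩ := exists_algEquiv_zeta_pow 13 K hζ 9 (by norm_num)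
  rw [← hz] at hσ9
  obtain ⟨σ10, hσ10⟩ := exists_algEquiv_zeta_pow 13 K hζ 10 (by norm_num)
  rw [← hz] at hσ10
  obtain ⟨σ11, hσ11⟩ := exists_algEquiv_zeta_pow 13 K hζ 11 (by norm_num)
  rw [← hz] at hσ11
  obtain ⟨σ12, hσ12⟩ := exists_algEquiv_zeta_pow 13 K hζ 12 (by norm_num)
  rw [← hz] at hσ12
  have c1 : σ1 (1 - z - z ^ 3) = 1 - z - z ^ 3 := by
    simp only [map_add, map_sub, map_neg, map_one, map_pow, hσ1]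
    linear_combination (0) * h1
  have c2 : σ2 (1 - z - z ^ 3) = 1 - z ^ 2 - z ^ 6 := by
    simp only [map_add, map_sub, map_neg, map_one, map_pow, hσ2]
    linear_combination (0) * h1
  have c3 : σ3 (1 - z - z ^ 3) = 1 - z ^ 3 - z ^ 9 := by
    simp only [map_add, map_sub, map_neg, map_one, map_pow, hσ3]
    linear_combination (0) * h1
  have c4 : σ4 (1 - z - z ^ 3) = 1 - z ^ 4 - z ^ 12 := by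
    simp only [map_add, map_sub, map_neg, map_one, map_pow, hσ4]
    linear_combination (0) * h1
  have c5 : σ5 (1 - z - z ^ 3) = 1 - z ^ 2 - z ^ 5 := by
    simp only [map_add, map_sub, map_neg, map_one, map_pow, hσ5]
    linear_combination (-z ^ 2) * h1
  have c6 : σ6 (1 - z - z ^ 3) = 1 - z ^ 5 - z ^ 6 := by
    simp only [map_add, map_sub, map_neg, map_one, map_pow, hσ6]
    linear_combination (-z ^ 5) * h1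
  have c7 : σ7 (1 - z - z ^ 3) = 1 - z ^ 7 - z ^ 8 := by
    simp only [map_add, map_sub, map_neg, map_one, map_pow, hσ7]
    linear_combination (-z ^ 8) * h1
  have c8 : σ8 (1 - z - z ^ 3) = 1 - z ^ 8 - z ^ 11 := by
    simp only [map_add, map_sub, map_neg, map_one, map_pow, hσ8]
    linear_combination (-z ^ 11) * h1
  have c9 : σ9 (1 - z - z ^ 3) = 1 - z - z ^ 9 := by
    simp only [map_add, map_sub, map_neg, map_one, map_pow, hσ9]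
    linear_combination (-z - z ^ 14) * h1
  have c10 : σ10 (1 - z - z ^ 3) = 1 - z ^ 4 - z ^ 10 := by
    simp only [map_add, map_sub, map_neg, map_one, map_pow, hσ10]
    linear_combination (-z ^ 4 - z ^ 17) * h1
  have c11 : σ11 (1 - z - z ^ 3) = 1 - z ^ 7 - z ^ 11 := by
    simp only [map_add, map_sub, map_neg, map_one, map_pow, hσ11]
    linear_combination (-z ^ 7 - z ^ 20) * h1
  have c12 : σ12 (1 - z - z ^ 3) = 1 - z ^ 10 - z ^ 12 := by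
    simp only [map_add, map_sub, map_neg, map_one, map_pow, hσ12]
    linear_combination (-z ^ 10 - z ^ 23) * h1
  have e2 : (1 - z - z ^ 3) * (1 - z ^ 2 - z ^ 6) = 1 - z - z ^ 2 + z ^ 5 - z ^ 6 + z ^ 7 + z ^ 9 := by
    linear_combination (0) * h1
  have e3 : (1 - z - z ^ 2 + z ^ 5 - z ^ 6 + z ^ 7 + z ^ 9) * (1 - z ^ 3 - z ^ 9) = 1 - 2 * z - 2 * z ^ 3 + z ^ 4 + z ^ 5 - z ^ 6 + z ^ 7 - z ^ 8 + z ^ 9 + z ^ 11 - z ^ 12 := by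
    linear_combination (-z + z ^ 2 - z ^ 3 - z ^ 5) * h1
  have e4 : (1 - 2 * z - 2 * z ^ 3 + z ^ 4 + z ^ 5 - z ^ 6 + z ^ 7 - z ^ 8 + z ^ 9 + z ^ 11 - z ^ 12) * (1 - z ^ 4 - z ^ 12) = 2 - 2 * z + z ^ 2 - 2 * z ^ 3 - z ^ 4 + 4 * z ^ 5 - 2 * z ^ 6 + 4 * z ^ 7 - 3 * z ^ 8 + z ^ 11 - z ^ 12 := by
    linear_combination (1 + z ^ 2 - z ^ 4 + z ^ 5 - z ^ 6 + z ^ 7 - z ^ 8 - z ^ 10 + z ^ 11) * h1
  have e5 : (2 - 2 * z + z ^ 2 - 2 * z ^ 3 - z ^ 4 + 4 * z ^ 5 - 2 * z ^ 6 + 4 * z ^ 7 - 3 * z ^ 8 + z ^ 11 - z ^ 12) * (1 - z ^ 2 - z ^ 5) = 4 - z - z ^ 2 - z ^ 3 - z ^ 4 + 4 * z ^ 5 + z ^ 6 - z ^ 7 + z ^ 8 - 3 * z ^ 9 - z ^ 10 + 3 * z ^ 11 - 5 * z ^ 12 := by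
    linear_combination (2 + z - z ^ 3 + z ^ 4) * h1
  have e6 : (4 - z - z ^ 2 - z ^ 3 - z ^ 4 + 4 * z ^ 5 + z ^ 6 - z ^ 7 + z ^ 8 - 3 * z ^ 9 - z ^ 10 + 3 * z ^ 11 - 5 * z ^ 12) * (1 - z ^ 5 - z ^ 6) = 4 + z + 3 * z ^ 2 - 3 * z ^ 3 + z ^ 4 + 5 * z ^ 5 - 2 * z ^ 6 + z ^ 7 + 3 * z ^ 8 - z ^ 9 - 4 * z ^ 10 - 2 * z ^ 11 - 5 * z ^ 12 := by
    linear_combination (2 * z + 4 * z ^ 2 - 2 * z ^ 3 + 2 * z ^ 4 + 5 * z ^ 5) * h1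
  have e7 : (4 + z + 3 * z ^ 2 - 3 * z ^ 3 + z ^ 4 + 5 * z ^ 5 - 2 * z ^ 6 + z ^ 7 + 3 * z ^ 8 - z ^ 9 - 4 * z ^ 10 - 2 * z ^ 11 - 5 * z ^ 12) * (1 - z ^ 7 - z ^ 8) = 1 + 2 * z - z ^ 2 - 5 * z ^ 3 + 6 * z ^ 4 + 11 * z ^ 5 + 5 * z ^ 6 + 2 * z ^ 7 - 2 * z ^ 8 - 5 * z ^ 9 - 4 * z ^ 10 - 11 * z ^ 12 := by
    linear_combination (-3 + z - 4 * z ^ 2 - 2 * z ^ 3 + 5 * z ^ 4 + 6 * z ^ 5 + 7 * z ^ 6 + 5 * z ^ 7) * h1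
  have e8 : (1 + 2 * z - z ^ 2 - 5 * z ^ 3 + 6 * z ^ 4 + 11 * z ^ 5 + 5 * z ^ 6 + 2 * z ^ 7 - 2 * z ^ 8 - 5 * z ^ 9 - 4 * z ^ 10 - 11 * z ^ 12) * (1 - z ^ 8 - z ^ 11) = -9 + 2 * z - 9 * z ^ 2 - 14 * z ^ 3 + 6 * z ^ 4 + 13 * z ^ 5 + 7 * z ^ 6 + 18 * z ^ 7 + z ^ 8 - 7 * z ^ 9 + 8 * z ^ 10 + 4 * z ^ 11 - 19 * z ^ 12 := by
    linear_combination (-10 - 8 * z ^ 2 - 9 * z ^ 3 + 2 * z ^ 5 + 2 * z ^ 6 + 16 * z ^ 7 + 4 * z ^ 8 + 11 * z ^ 10) * h1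
  have e9 : (-9 + 2 * z - 9 * z ^ 2 - 14 * z ^ 3 + 6 * z ^ 4 + 13 * z ^ 5 + 7 * z ^ 6 + 18 * z ^ 7 + z ^ 8 - 7 * z ^ 9 + 8 * z ^ 10 + 4 * z ^ 11 - 19 * z ^ 12) * (1 - z - z ^ 9) = 4 - 2 * z - 18 * z ^ 2 - 23 * z ^ 3 + 19 * z ^ 4 + 14 * z ^ 5 - 14 * z ^ 6 + 7 * z ^ 7 + 2 * z ^ 8 + z ^ 9 + 13 * z ^ 10 + 5 * z ^ 11 - 9 * z ^ 12 := by
    linear_combination (13 - 13 * z - 7 * z ^ 2 - 18 * z ^ 3 - z ^ 4 + 7 * z ^ 5 - 8 * z ^ 6 - 4 * z ^ 7 + 19 * z ^ 8) * h1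
  have e10 : (4 - 2 * z - 18 * z ^ 2 - 23 * z ^ 3 + 19 * z ^ 4 + 14 * z ^ 5 - 14 * z ^ 6 + 7 * z ^ 7 + 2 * z ^ 8 + z ^ 9 + 13 * z ^ 10 + 5 * z ^ 11 - 9 * z ^ 12) * (1 - z ^ 4 - z ^ 10) = 26 - 34 * z - 37 * z ^ 2 + 8 * z ^ 4 + 14 * z ^ 5 + 3 * z ^ 6 + 17 * z ^ 7 - 22 * z ^ 8 - 4 * z ^ 9 + 23 * z ^ 10 + 7 * z ^ 12 := by
    linear_combination (22 - 32 * z - 19 * z ^ 2 + 23 * z ^ 3 - 7 * z ^ 4 - 2 * z ^ 5 - z ^ 6 - 13 * z ^ 7 - 5 * z ^ 8 + 9 * z ^ 9) * h1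
  have e11 : (26 - 34 * z - 37 * z ^ 2 + 8 * z ^ 4 + 14 * z ^ 5 + 3 * z ^ 6 + 17 * z ^ 7 - 22 * z ^ 8 - 4 * z ^ 9 + 23 * z ^ 10 + 7 * z ^ 12) * (1 - z ^ 7 - z ^ 11) = 60 - 51 * z - 23 * z ^ 2 - 10 * z ^ 3 - 18 * z ^ 4 - 3 * z ^ 5 + 18 * z ^ 6 - 5 * z ^ 7 - 11 * z ^ 8 + 33 * z ^ 9 + 16 * z ^ 10 - 34 * z ^ 11 + 27 * z ^ 12 := by
    linear_combination (34 - 17 * z + 14 * z ^ 2 - 10 * z ^ 3 - 26 * z ^ 4 - 17 * z ^ 5 + 15 * z ^ 6 + 4 * z ^ 7 - 23 * z ^ 8 - 7 * z ^ 10) * h1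
  have e12 : (60 - 51 * z - 23 * z ^ 2 - 10 * z ^ 3 - 18 * z ^ 4 - 3 * z ^ 5 + 18 * z ^ 6 - 5 * z ^ 7 - 11 * z ^ 8 + 33 * z ^ 9 + 16 * z ^ 10 - 34 * z ^ 11 + 27 * z ^ 12) * (1 - z ^ 10 - z ^ 12) = 121 - 10 * z - 10 * z ^ 2 - 10 * z ^ 3 - 10 * z ^ 4 - 10 * z ^ 5 - 10 * z ^ 6 - 10 * z ^ 7 - 10 * z ^ 8 - 10 * z ^ 9 - 10 * z ^ 10 - 10 * z ^ 11 - 10 * z ^ 12 := by
    linear_combination (61 + 41 * z + 13 * z ^ 2 + 8 * z ^ 4 - 7 * z ^ 5 - 28 * z ^ 6 - 5 * z ^ 7 + z ^ 8 - 43 * z ^ 9 + 34 * z ^ 10 - 27 * z ^ 11) * h1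
  have efin : 121 - 10 * z - 10 * z ^ 2 - 10 * z ^ 3 - 10 * z ^ 4 - 10 * z ^ 5 - 10 * z ^ 6 - 10 * z ^ 7 - 10 * z ^ 8 - 10 * z ^ 9 - 10 * z ^ 10 - 10 * z ^ 11 - 10 * z ^ 12 = ((131 : ℤ) : 𝓞 K) := by
    push_cast
    linear_combination (-10) * hΦ
  refine ⟨1 - z - z ^ 3, ?_⟩
  have key := natAbs_norm_eq_of_prod K (1 - z - z ^ 3) [σ1 (1 - z - z ^ 3), σ2 (1 - z - z ^ 3), σ3 (1 - z - z ^ 3), σ4 (1 - z - z ^ 3), σ5 (1 - z - z ^ 3), σ6 (1 - z - z ^ 3), σ7 (1 - z - z ^ 3), σ8 (1 - z - z ^ 3), σ9 (1 - z - z ^ 3), σ10 (1 - z - z ^ 3), σ11 (1 - z - z ^ 3), σ12 (1 - z - z ^ 3)]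
    (by
      intro β hβ
      simp only [List.mem_cons, List.not_mem_nil, or_false] at hβ
      rcases hβ with rfl | rfl | rfl | rfl | rfl | rfl | rfl | rfl | rfl | rfl | rfl | rfl <;> exact Algebra.norm_eq_of_algEquiv _ _)
    (131) (by
      simp only [List.prod_cons, List.prod_nil, mul_one, ← mul_assoc]
      rw [c1, c2, c3, c4, c5, c6, c7, c8, c9, c10, c11, c12, e2, e3, e4, e5, e6, e7, e8, e9, e10, e11, e12, efin])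
    (by
      rw [IsCyclotomicExtension.finrank (n := 13) K (Polynomial.cyclotomic.irreducible_rat (by norm_num)),
        Nat.totient_prime (by norm_num)]
      rfl)
  simpa using key

lemma exists_norm_thirteen_79 (K : Type*) [Field K] [NumberField K] [IsCyclotomicExtension {13} ℚ K] :
    ∃ α : 𝓞 K, (Algebra.norm ℤ α).natAbs = 79 := by
  have : Fact (Nat.Prime 13) := ⟨by norm_num⟩
  have hζ := zeta_spec 13 ℚ K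
  obtain ⟨z, hz⟩ : ∃ z : 𝓞 K, z = hζ.toInteger := ⟨_, rfl⟩
  have h1 : z ^ 13 = 1 := by rw [hz]; exact hζ.toInteger_isPrimitiveRoot.pow_eq_one
  have hΦ : 1 + z + z ^ 2 + z ^ 3 + z ^ 4 + z ^ 5 + z ^ 6 + z ^ 7 + z ^ 8 + z ^ 9 + z ^ 10 + z ^ 11 + z ^ 12 = 0 := by
    have := hζ.toInteger_isPrimitiveRoot.geom_sum_eq_zero (by norm_num)
    rw [← hz] at this
    simpa [Finset.sum_range_succ] using this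
  obtain ⟨σ1, hσ1⟩ := exists_algEquiv_zeta_pow 13 K hζ 1 (by norm_num)
  rw [← hz] at hσ1
  obtain ⟨σ2, hσ2⟩ := exists_algEquiv_zeta_pow 13 K hζ 2 (by norm_num)
  rw [← hz] at hσ2
  obtain ⟨σ3, hσ3⟩ := exists_algEquiv_zeta_pow 13 K hζ 3 (by norm_num)
  rw [← hz] at hσ3
  obtain ⟨σ4, hσ4⟩ := exists_algEquiv_zeta_pow 13 K hζ 4 (by norm_num)
  rw [← hz] at hσ4
  obtain ⟨σ5, hσ5⟩ := exists_algEquiv_zeta_pow 13 K hζ 5 (by norm_num)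
  rw [← hz] at hσ5
  obtain ⟨σ6, hσ6⟩ := exists_algEquiv_zeta_pow 13 K hζ 6 (by norm_num)
  rw [← hz] at hσ6
  obtain ⟨σ7, hσ7⟩ := exists_algEquiv_zeta_pow 13 K hζ 7 (by norm_num)
  rw [← hz] at hσ7
  obtain ⟨σ8, hσ8⟩ := exists_algEquiv_zeta_pow 13 K hζ 8 (by norm_num)
  rw [← hz] at hσ8
  obtain ⟨σ9, hσ9⟩ := exists_algEquiv_zeta_pow 13 K hζ 9 (by norm_num)
  rw [← hz] at hσ9
  obtain ⟨σ10, hσ10⟩ := exists_algEquiv_zeta_pow 13 K hζ 10 (by norm_num)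
  rw [← hz] at hσ10
  obtain ⟨σ11, hσ11⟩ := exists_algEquiv_zeta_pow 13 K hζ 11 (by norm_num)
  rw [← hz] at hσ11
  obtain ⟨σ12, hσ12⟩ := exists_algEquiv_zeta_pow 13 K hζ 12 (by norm_num)
  rw [← hz] at hσ12
  have c1 : σ1 (1 + z - z ^ 4) = 1 + z - z ^ 4 := by
    simp only [map_add, map_sub, map_neg, map_one, map_pow, hσ1]
    linear_combination (0) * h1
  have c2 : σ2 (1 + z - z ^ 4) = 1 + z ^ 2 - z ^ 8 := by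
    simp only [map_add, map_sub, map_neg, map_one, map_pow, hσ2]
    linear_combination (0) * h1
  have c3 : σ3 (1 + z - z ^ 4) = 1 + z ^ 3 - z ^ 12 := by
    simp only [map_add, map_sub, map_neg, map_one, map_pow, hσ3]
    linear_combination (0) * h1
  have c4 : σ4 (1 + z - z ^ 4) = 1 - z ^ 3 + z ^ 4 := by
    simp only [map_add, map_sub, map_neg, map_one, map_pow, hσ4]
    linear_combination (-z ^ 3) * h1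
  have c5 : σ5 (1 + z - z ^ 4) = 1 + z ^ 5 - z ^ 7 := by
    simp only [map_add, map_sub, map_neg, map_one, map_pow, hσ5]
    linear_combination (-z ^ 7) * h1
  have c6 : σ6 (1 + z - z ^ 4) = 1 + z ^ 6 - z ^ 11 := by
    simp only [map_add, map_sub, map_neg, map_one, map_pow, hσ6]
    linear_combination (-z ^ 11) * h1
  have c7 : σ7 (1 + z - z ^ 4) = 1 - z ^ 2 + z ^ 7 := by
    simp only [map_add, map_sub, map_neg, map_one, map_pow, hσ7]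
    linear_combination (-z ^ 2 - z ^ 15) * h1
  have c8 : σ8 (1 + z - z ^ 4) = 1 - z ^ 6 + z ^ 8 := by
    simp only [map_add, map_sub, map_neg, map_one, map_pow, hσ8]
    linear_combination (-z ^ 6 - z ^ 19) * h1
  have c9 : σ9 (1 + z - z ^ 4) = 1 + z ^ 9 - z ^ 10 := by
    simp only [map_add, map_sub, map_neg, map_one, map_pow, hσ9]
    linear_combination (-z ^ 10 - z ^ 23) * h1
  have c10 : σ10 (1 + z - z ^ 4) = 1 - z + z ^ 10 := by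
    simp only [map_add, map_sub, map_neg, map_one, map_pow, hσ10]
    linear_combination (-z - z ^ 14 - z ^ 27) * h1
  have c11 : σ11 (1 + z - z ^ 4) = 1 - z ^ 5 + z ^ 11 := by
    simp only [map_add, map_sub, map_neg, map_one, map_pow, hσ11]
    linear_combination (-z ^ 5 - z ^ 18 - z ^ 31) * h1
  have c12 : σ12 (1 + z - z ^ 4) = 1 - z ^ 9 + z ^ 12 := by
    simp only [map_add, map_sub, map_neg, map_one, map_pow, hσ12]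
    linear_combination (-z ^ 9 - z ^ 22 - z ^ 35) * h1
  have e2 : (1 + z - z ^ 4) * (1 + z ^ 2 - z ^ 8) = 1 + z + z ^ 2 + z ^ 3 - z ^ 4 - z ^ 6 - z ^ 8 - z ^ 9 + z ^ 12 := by
    linear_combination (0) * h1
  have e3 : (1 + z + z ^ 2 + z ^ 3 - z ^ 4 - z ^ 6 - z ^ 8 - z ^ 9 + z ^ 12) * (1 + z ^ 3 - z ^ 12) = z ^ 2 + 3 * z ^ 3 + 2 * z ^ 5 - 2 * z ^ 9 - 2 * z ^ 11 - z ^ 12 := by
    linear_combination (-1 - z + z ^ 3 + z ^ 5 + z ^ 7 + z ^ 8 - z ^ 11) * h1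
  have e4 : (z ^ 2 + 3 * z ^ 3 + 2 * z ^ 5 - 2 * z ^ 9 - 2 * z ^ 11 - z ^ 12) * (1 - z ^ 3 + z ^ 4) = -2 + 2 * z + 2 * z ^ 3 + z ^ 5 - 2 * z ^ 6 + 3 * z ^ 7 - 2 * z ^ 8 - 2 * z ^ 11 + z ^ 12 := by
    linear_combination (-2 + 2 * z - z ^ 2 - z ^ 3) * h1
  have e5 : (-2 + 2 * z + 2 * z ^ 3 + z ^ 5 - 2 * z ^ 6 + 3 * z ^ 7 - 2 * z ^ 8 - 2 * z ^ 11 + z ^ 12) * (1 + z ^ 5 - z ^ 7) = -2 - z + 2 * z ^ 2 + z ^ 4 + z ^ 5 - z ^ 6 + 5 * z ^ 7 - 2 * z ^ 8 - z ^ 10 - 4 * z ^ 11 + 3 * z ^ 12 := by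
    linear_combination (-3 * z + 2 * z ^ 2 - 2 * z ^ 3 + z ^ 4 + 2 * z ^ 5 - z ^ 6) * h1
  have e6 : (-2 - z + 2 * z ^ 2 + z ^ 4 + z ^ 5 - z ^ 6 + 5 * z ^ 7 - 2 * z ^ 8 - z ^ 10 - 4 * z ^ 11 + 3 * z ^ 12) * (1 + z ^ 6 - z ^ 11) = 1 - 3 * z + z ^ 2 - 2 * z ^ 3 - 2 * z ^ 4 - z ^ 5 - z ^ 6 + 4 * z ^ 7 + z ^ 8 + 4 * z ^ 9 - 3 * z ^ 10 - z ^ 11 + 3 * z ^ 12 := by
    linear_combination (3 - 2 * z - z ^ 2 - 2 * z ^ 3 - 3 * z ^ 4 - 2 * z ^ 5 + 2 * z ^ 6 + z ^ 8 + 4 * z ^ 9 - 3 * z ^ 10) * h1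
  have e7 : (1 - 3 * z + z ^ 2 - 2 * z ^ 3 - 2 * z ^ 4 - z ^ 5 - z ^ 6 + 4 * z ^ 7 + z ^ 8 + 4 * z ^ 9 - 3 * z ^ 10 - z ^ 11 + 3 * z ^ 12) * (1 - z ^ 2 + z ^ 7) = 1 - 2 * z + z ^ 2 + 5 * z ^ 3 - 6 * z ^ 4 + 4 * z ^ 6 + 6 * z ^ 7 - z ^ 8 + z ^ 9 - 6 * z ^ 10 - 7 * z ^ 11 + 5 * z ^ 12 := by
    linear_combination (z + z ^ 2 + 4 * z ^ 3 - 3 * z ^ 4 - z ^ 5 + 3 * z ^ 6) * h1
  have e8 : (1 - 2 * z + z ^ 2 + 5 * z ^ 3 - 6 * z ^ 4 + 4 * z ^ 6 + 6 * z ^ 7 - z ^ 8 + z ^ 9 - 6 * z ^ 10 - 7 * z ^ 11 + 5 * z ^ 12) * (1 - z ^ 6 + z ^ 8) = -5 + 3 * z + 6 * z ^ 2 + 10 * z ^ 3 + 2 * z ^ 4 - 11 * z ^ 5 - 4 * z ^ 6 + 13 * z ^ 7 - z ^ 8 - 6 * z ^ 9 + z ^ 10 - 2 * z ^ 11 - 5 * z ^ 12 := by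
    linear_combination (-6 + 5 * z + 5 * z ^ 2 + 5 * z ^ 3 + 8 * z ^ 4 - 11 * z ^ 5 - 7 * z ^ 6 + 5 * z ^ 7) * h1
  have e9 : (-5 + 3 * z + 6 * z ^ 2 + 10 * z ^ 3 + 2 * z ^ 4 - 11 * z ^ 5 - 4 * z ^ 6 + 13 * z ^ 7 - z ^ 8 - 6 * z ^ 9 + z ^ 10 - 2 * z ^ 11 - 5 * z ^ 12) * (1 + z ^ 9 - z ^ 10) = -13 - 10 * z + 13 * z ^ 2 + 27 * z ^ 3 - 12 * z ^ 4 - 16 * z ^ 5 + 3 * z ^ 6 + 10 * z ^ 7 - 4 * z ^ 8 - 6 * z ^ 9 + 9 * z ^ 10 + z ^ 11 - z ^ 12 := by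
    linear_combination (-8 - 13 * z + 7 * z ^ 2 + 17 * z ^ 3 - 14 * z ^ 4 - 5 * z ^ 5 + 7 * z ^ 6 - 3 * z ^ 7 - 3 * z ^ 8 + 5 * z ^ 9) * h1
  have e10 : (-13 - 10 * z + 13 * z ^ 2 + 27 * z ^ 3 - 12 * z ^ 4 - 16 * z ^ 5 + 3 * z ^ 6 + 10 * z ^ 7 - 4 * z ^ 8 - 6 * z ^ 9 + 9 * z ^ 10 + z ^ 11 - z ^ 12) * (1 - z + z ^ 10) = 15 - 9 * z + 7 * z ^ 2 + 17 * z ^ 3 - 29 * z ^ 4 - 8 * z ^ 5 + 13 * z ^ 6 + 16 * z ^ 7 - 13 * z ^ 8 - 3 * z ^ 9 + 2 * z ^ 10 - 18 * z ^ 11 + 11 * z ^ 12 := by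
    linear_combination (28 - 12 * z - 16 * z ^ 2 + 3 * z ^ 3 + 10 * z ^ 4 - 4 * z ^ 5 - 6 * z ^ 6 + 9 * z ^ 7 + z ^ 8 - z ^ 9) * h1
  have e11 : (15 - 9 * z + 7 * z ^ 2 + 17 * z ^ 3 - 29 * z ^ 4 - 8 * z ^ 5 + 13 * z ^ 6 + 16 * z ^ 7 - 13 * z ^ 8 - 3 * z ^ 9 + 2 * z ^ 10 - 18 * z ^ 11 + 11 * z ^ 12) * (1 - z ^ 5 + z ^ 11) = 35 + 11 * z - 24 * z ^ 2 + 27 * z ^ 3 - 27 * z ^ 4 - 7 * z ^ 5 + 9 * z ^ 6 + 6 * z ^ 7 - 28 * z ^ 8 + 8 * z ^ 9 + 21 * z ^ 10 - 16 * z ^ 11 - 14 * z ^ 12 := by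
    linear_combination (20 + 20 * z - 31 * z ^ 2 + 10 * z ^ 3 + 2 * z ^ 4 + 16 * z ^ 5 - 13 * z ^ 6 - 3 * z ^ 7 + 2 * z ^ 8 - 18 * z ^ 9 + 11 * z ^ 10) * h1
  have e12 : (35 + 11 * z - 24 * z ^ 2 + 27 * z ^ 3 - 27 * z ^ 4 - 7 * z ^ 5 + 9 * z ^ 6 + 6 * z ^ 7 - 28 * z ^ 8 + 8 * z ^ 9 + 21 * z ^ 10 - 16 * z ^ 11 - 14 * z ^ 12) * (1 - z ^ 9 + z ^ 12) = 73 - 6 * z - 6 * z ^ 2 - 6 * z ^ 3 - 6 * z ^ 4 - 6 * z ^ 5 - 6 * z ^ 6 - 6 * z ^ 7 - 6 * z ^ 8 - 6 * z ^ 9 - 6 * z ^ 10 - 6 * z ^ 11 - 6 * z ^ 12 := by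
    linear_combination (38 - 17 * z + 18 * z ^ 2 - 33 * z ^ 3 + 21 * z ^ 4 + z ^ 5 - 15 * z ^ 6 - 12 * z ^ 7 + 22 * z ^ 8 + 21 * z ^ 9 - 16 * z ^ 10 - 14 * z ^ 11) * h1
  have efin : 73 - 6 * z - 6 * z ^ 2 - 6 * z ^ 3 - 6 * z ^ 4 - 6 * z ^ 5 - 6 * z ^ 6 - 6 * z ^ 7 - 6 * z ^ 8 - 6 * z ^ 9 - 6 * z ^ 10 - 6 * z ^ 11 - 6 * z ^ 12 = ((79 : ℤ) : 𝓞 K) := by
    push_cast
    linear_combination (-6) * hΦ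
  refine ⟨1 + z - z ^ 4, ?_⟩
  have key := natAbs_norm_eq_of_prod K (1 + z - z ^ 4) [σ1 (1 + z - z ^ 4), σ2 (1 + z - z ^ 4), σ3 (1 + z - z ^ 4), σ4 (1 + z - z ^ 4), σ5 (1 + z - z ^ 4), σ6 (1 + z - z ^ 4), σ7 (1 + z - z ^ 4), σ8 (1 + z - z ^ 4), σ9 (1 + z - z ^ 4), σ10 (1 + z - z ^ 4), σ11 (1 + z - z ^ 4), σ12 (1 + z - z ^ 4)]
    (by
      intro β hβ
      simp only [List.mem_cons, List.not_mem_nil, or_false] at hβ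
      rcases hβ with rfl | rfl | rfl | rfl | rfl | rfl | rfl | rfl | rfl | rfl | rfl | rfl <;> exact Algebra.norm_eq_of_algEquiv _ _)
    (79) (by
      simp only [List.prod_cons, List.prod_nil, mul_one, ← mul_assoc]
      rw [c1, c2, c3, c4, c5, c6, c7, c8, c9, c10, c11, c12, e2, e3, e4, e5, e6, e7, e8, e9, e10, e11, e12, efin])
    (by
      rw [IsCyclotomicExtension.finrank (n := 13) K (Polynomial.cyclotomic.irreducible_rat (by norm_num)),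
        Nat.totient_prime (by norm_num)]
      rfl)
  simpa using key

lemma exists_norm_thirteen_157 (K : Type*) [Field K] [NumberField K] [IsCyclotomicExtension {13} ℚ K] :
    ∃ α : 𝓞 K, (Algebra.norm ℤ α).natAbs = 157 := by
  have : Fact (Nat.Prime 13) := ⟨by norm_num⟩
  have hζ := zeta_spec 13 ℚ K
  obtain ⟨z, hz⟩ : ∃ z : 𝓞 K, z = hζ.toInteger := ⟨_, rfl⟩
  have h1 : z ^ 13 = 1 := by rw [hz]; exact hζ.toInteger_isPrimitiveRoot.pow_eq_one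
  have hΦ : 1 + z + z ^ 2 + z ^ 3 + z ^ 4 + z ^ 5 + z ^ 6 + z ^ 7 + z ^ 8 + z ^ 9 + z ^ 10 + z ^ 11 + z ^ 12 = 0 := by
    have := hζ.toInteger_isPrimitiveRoot.geom_sum_eq_zero (by norm_num)
    rw [← hz] at this
    simpa [Finset.sum_range_succ] using this
  obtain ⟨σ1, hσ1⟩ := exists_algEquiv_zeta_pow 13 K hζ 1 (by norm_num)
  rw [← hz] at hσ1
  obtain ⟨σ2, hσ2⟩ := exists_algEquiv_zeta_pow 13 K hζ 2 (by norm_num)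
  rw [← hz] at hσ2
  obtain ⟨σ3, hσ3⟩ := exists_algEquiv_zeta_pow 13 K hζ 3 (by norm_num)
  rw [← hz] at hσ3
  obtain ⟨σ4, hσ4⟩ := exists_algEquiv_zeta_pow 13 K hζ 4 (by norm_num)
  rw [← hz] at hσ4
  obtain ⟨σ5, hσ5⟩ := exists_algEquiv_zeta_pow 13 K hζ 5 (by norm_num)
  rw [← hz] at hσ5
  obtain ⟨σ6, hσ6⟩ := exists_algEquiv_zeta_pow 13 K hζ 6 (by norm_num)
  rw [← hz] at hσ6
  obtain ⟨σ7, hσ7⟩ := exists_algEquiv_zeta_pow 13 K hζ 7 (by norm_num)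
  rw [← hz] at hσ7
  obtain ⟨σ8, hσ8⟩ := exists_algEquiv_zeta_pow 13 K hζ 8 (by norm_num)
  rw [← hz] at hσ8
  obtain ⟨σ9, hσ9⟩ := exists_algEquiv_zeta_pow 13 K hζ 9 (by norm_num)
  rw [← hz] at hσ9
  obtain ⟨σ10, hσ10⟩ := exists_algEquiv_zeta_pow 13 K hζ 10 (by norm_num)
  rw [← hz] at hσ10
  obtain ⟨σ11, hσ11⟩ := exists_algEquiv_zeta_pow 13 K hζ 11 (by norm_num)
  rw [← hz] at hσ11
  obtain ⟨σ12, hσ12⟩ := exists_algEquiv_zeta_pow 13 K hζ 12 (by norm_num)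
  rw [← hz] at hσ12
  have c1 : σ1 (1 - z + z ^ 2 + z ^ 4) = 1 - z + z ^ 2 + z ^ 4 := by
    simp only [map_add, map_sub, map_neg, map_one, map_pow, hσ1]
    linear_combination (0) * h1
  have c2 : σ2 (1 - z + z ^ 2 + z ^ 4) = 1 - z ^ 2 + z ^ 4 + z ^ 8 := by
    simp only [map_add, map_sub, map_neg, map_one, map_pow, hσ2]
    linear_combination (0) * h1
  have c3 : σ3 (1 - z + z ^ 2 + z ^ 4) = 1 - z ^ 3 + z ^ 6 + z ^ 12 := by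
    simp only [map_add, map_sub, map_neg, map_one, map_pow, hσ3]
    linear_combination (0) * h1
  have c4 : σ4 (1 - z + z ^ 2 + z ^ 4) = 1 + z ^ 3 - z ^ 4 + z ^ 8 := by
    simp only [map_add, map_sub, map_neg, map_one, map_pow, hσ4]
    linear_combination (z ^ 3) * h1
  have c5 : σ5 (1 - z + z ^ 2 + z ^ 4) = 1 - z ^ 5 + z ^ 7 + z ^ 10 := by
    simp only [map_add, map_sub, map_neg, map_one, map_pow, hσ5]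
    linear_combination (z ^ 7) * h1
  have c6 : σ6 (1 - z + z ^ 2 + z ^ 4) = 1 - z ^ 6 + z ^ 11 + z ^ 12 := by
    simp only [map_add, map_sub, map_neg, map_one, map_pow, hσ6]
    linear_combination (z ^ 11) * h1
  have c7 : σ7 (1 - z + z ^ 2 + z ^ 4) = 1 + z + z ^ 2 - z ^ 7 := by
    simp only [map_add, map_sub, map_neg, map_one, map_pow, hσ7]
    linear_combination (z + z ^ 2 + z ^ 15) * h1
  have c8 : σ8 (1 - z + z ^ 2 + z ^ 4) = 1 + z ^ 3 + z ^ 6 - z ^ 8 := by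
    simp only [map_add, map_sub, map_neg, map_one, map_pow, hσ8]
    linear_combination (z ^ 3 + z ^ 6 + z ^ 19) * h1
  have c9 : σ9 (1 - z + z ^ 2 + z ^ 4) = 1 + z ^ 5 - z ^ 9 + z ^ 10 := by
    simp only [map_add, map_sub, map_neg, map_one, map_pow, hσ9]
    linear_combination (z ^ 5 + z ^ 10 + z ^ 23) * h1
  have c10 : σ10 (1 - z + z ^ 2 + z ^ 4) = 1 + z + z ^ 7 - z ^ 10 := by
    simp only [map_add, map_sub, map_neg, map_one, map_pow, hσ10]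
    linear_combination (z + z ^ 7 + z ^ 14 + z ^ 27) * h1
  have c11 : σ11 (1 - z + z ^ 2 + z ^ 4) = 1 + z ^ 5 + z ^ 9 - z ^ 11 := by
    simp only [map_add, map_sub, map_neg, map_one, map_pow, hσ11]
    linear_combination (z ^ 5 + z ^ 9 + z ^ 18 + z ^ 31) * h1
  have c12 : σ12 (1 - z + z ^ 2 + z ^ 4) = 1 + z ^ 9 + z ^ 11 - z ^ 12 := by
    simp only [map_add, map_sub, map_neg, map_one, map_pow, hσ12]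
    linear_combination (z ^ 9 + z ^ 11 + z ^ 22 + z ^ 35) * h1
  have e2 : (1 - z + z ^ 2 + z ^ 4) * (1 - z ^ 2 + z ^ 4 + z ^ 8) = 1 - z + z ^ 3 + z ^ 4 - z ^ 5 + 2 * z ^ 8 - z ^ 9 + z ^ 10 + z ^ 12 := by
    linear_combination (0) * h1
  have e3 : (1 - z + z ^ 3 + z ^ 4 - z ^ 5 + 2 * z ^ 8 - z ^ 9 + z ^ 10 + z ^ 12) * (1 - z ^ 3 + z ^ 6 + z ^ 12) = -1 + z - z ^ 2 + 2 * z ^ 3 + z ^ 4 + 2 * z ^ 8 + z ^ 9 + 2 * z ^ 10 - 2 * z ^ 11 + 3 * z ^ 12 := by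
    linear_combination (-2 + 2 * z - z ^ 2 + 2 * z ^ 3 - z ^ 4 + z ^ 5 + 2 * z ^ 7 - z ^ 8 + z ^ 9 + z ^ 11) * h1
  have e4 : (-1 + z - z ^ 2 + 2 * z ^ 3 + z ^ 4 + 2 * z ^ 8 + z ^ 9 + 2 * z ^ 10 - 2 * z ^ 11 + 3 * z ^ 12) * (1 + z ^ 3 - z ^ 4 + z ^ 8) = -3 * z + 4 * z ^ 2 + 4 * z ^ 4 + z ^ 6 + 2 * z ^ 7 + 2 * z ^ 9 + z ^ 10 + 2 * z ^ 11 + 3 * z ^ 12 := by
    linear_combination (1 - 4 * z + 5 * z ^ 2 - z ^ 3 + z ^ 4 + 2 * z ^ 5 - 2 * z ^ 6 + 3 * z ^ 7) * h1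
  have e5 : (-3 * z + 4 * z ^ 2 + 4 * z ^ 4 + z ^ 6 + 2 * z ^ 7 + 2 * z ^ 9 + z ^ 10 + 2 * z ^ 11 + 3 * z ^ 12) * (1 - z ^ 5 + z ^ 7 + z ^ 10) = 1 + z + 3 * z ^ 2 + z ^ 3 + 4 * z ^ 4 + 2 * z ^ 5 + 9 * z ^ 6 - z ^ 7 - z ^ 8 + 5 * z ^ 9 + z ^ 10 + 2 * z ^ 11 + 5 * z ^ 12 := by
    linear_combination (1 + 4 * z - z ^ 2 + z ^ 3 + 2 * z ^ 5 + 5 * z ^ 6 + z ^ 7 + 2 * z ^ 8 + 3 * z ^ 9) * h1
  have e6 : (1 + z + 3 * z ^ 2 + z ^ 3 + 4 * z ^ 4 + 2 * z ^ 5 + 9 * z ^ 6 - z ^ 7 - z ^ 8 + 5 * z ^ 9 + z ^ 10 + 2 * z ^ 11 + 5 * z ^ 12) * (1 - z ^ 6 + z ^ 11 + z ^ 12) = 6 + 6 * z + 3 * z ^ 2 + 6 * z ^ 3 + 13 * z ^ 4 + 5 * z ^ 5 + 6 * z ^ 6 + 2 * z ^ 7 + 2 * z ^ 8 + 7 * z ^ 9 + 4 * z ^ 10 + 6 * z ^ 11 - 2 * z ^ 12 := by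
    linear_combination (5 + 5 * z + 5 * z ^ 3 + 9 * z ^ 4 + 3 * z ^ 5 - 2 * z ^ 6 + 4 * z ^ 7 + 6 * z ^ 8 + 3 * z ^ 9 + 7 * z ^ 10 + 5 * z ^ 11) * h1
  have e7 : (6 + 6 * z + 3 * z ^ 2 + 6 * z ^ 3 + 13 * z ^ 4 + 5 * z ^ 5 + 6 * z ^ 6 + 2 * z ^ 7 + 2 * z ^ 8 + 7 * z ^ 9 + 4 * z ^ 10 + 6 * z ^ 11 - 2 * z ^ 12) * (1 + z + z ^ 2 - z ^ 7) = 4 + 8 * z + 13 * z ^ 2 + 8 * z ^ 3 + 18 * z ^ 4 + 18 * z ^ 5 + 26 * z ^ 6 + 7 * z ^ 7 + 4 * z ^ 8 + 8 * z ^ 9 + 7 * z ^ 10 + 4 * z ^ 11 + 3 * z ^ 12 := by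
    linear_combination (-2 - 4 * z - 2 * z ^ 2 - 7 * z ^ 3 - 4 * z ^ 4 - 6 * z ^ 5 + 2 * z ^ 6) * h1
  have e8 : (4 + 8 * z + 13 * z ^ 2 + 8 * z ^ 3 + 18 * z ^ 4 + 18 * z ^ 5 + 26 * z ^ 6 + 7 * z ^ 7 + 4 * z ^ 8 + 8 * z ^ 9 + 7 * z ^ 10 + 4 * z ^ 11 + 3 * z ^ 12) * (1 + z ^ 3 + z ^ 6 - z ^ 8) = -10 * z + 17 * z ^ 2 + 15 * z ^ 3 + 22 * z ^ 4 + 27 * z ^ 5 + 34 * z ^ 6 + 30 * z ^ 7 + 31 * z ^ 8 + 34 * z ^ 9 + 19 * z ^ 10 + 18 * z ^ 11 + 19 * z ^ 12 := by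
    linear_combination (-4 - 18 * z + 4 * z ^ 2 + 3 * z ^ 3 - 4 * z ^ 4 - 4 * z ^ 5 - 4 * z ^ 6 - 3 * z ^ 7) * h1
  have e9 : (-10 * z + 17 * z ^ 2 + 15 * z ^ 3 + 22 * z ^ 4 + 27 * z ^ 5 + 34 * z ^ 6 + 30 * z ^ 7 + 31 * z ^ 8 + 34 * z ^ 9 + 19 * z ^ 10 + 18 * z ^ 11 + 19 * z ^ 12) * (1 + z ^ 5 - z ^ 9 + z ^ 10) = 24 + 19 * z + 29 * z ^ 2 + 37 * z ^ 3 + 40 * z ^ 4 + 24 * z ^ 5 + 39 * z ^ 6 + 48 * z ^ 7 + 45 * z ^ 8 + 75 * z ^ 9 + 56 * z ^ 10 + 25 * z ^ 11 + 51 * z ^ 12 := by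
    linear_combination (24 + 29 * z + 12 * z ^ 2 + 22 * z ^ 3 + 18 * z ^ 4 - 3 * z ^ 5 + 15 * z ^ 6 + z ^ 7 - z ^ 8 + 19 * z ^ 9) * h1
  have e10 : (24 + 19 * z + 29 * z ^ 2 + 37 * z ^ 3 + 40 * z ^ 4 + 24 * z ^ 5 + 39 * z ^ 6 + 48 * z ^ 7 + 45 * z ^ 8 + 75 * z ^ 9 + 56 * z ^ 10 + 25 * z ^ 11 + 51 * z ^ 12) * (1 + z + z ^ 7 - z ^ 10) = 77 + 51 * z + 69 * z ^ 2 + 102 * z ^ 3 + 85 * z ^ 4 + 44 * z ^ 5 + 39 * z ^ 6 + 55 * z ^ 7 + 87 * z ^ 8 + 98 * z ^ 9 + 144 * z ^ 10 + 102 * z ^ 11 + 71 * z ^ 12 := by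
    linear_combination (53 + 8 * z + 21 * z ^ 2 + 36 * z ^ 3 + 8 * z ^ 4 - 20 * z ^ 5 - 24 * z ^ 6 - 56 * z ^ 7 - 25 * z ^ 8 - 51 * z ^ 9) * h1
  have e11 : (77 + 51 * z + 69 * z ^ 2 + 102 * z ^ 3 + 85 * z ^ 4 + 44 * z ^ 5 + 39 * z ^ 6 + 55 * z ^ 7 + 87 * z ^ 8 + 98 * z ^ 9 + 144 * z ^ 10 + 102 * z ^ 11 + 71 * z ^ 12) * (1 + z ^ 5 + z ^ 9 - z ^ 11) = 180 + 91 * z + 167 * z ^ 2 + 215 * z ^ 3 + 204 * z ^ 4 + 164 * z ^ 5 + 147 * z ^ 6 + 128 * z ^ 7 + 116 * z ^ 8 + 158 * z ^ 9 + 168 * z ^ 10 + 133 * z ^ 11 + 177 * z ^ 12 := by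
    linear_combination (103 + 40 * z + 98 * z ^ 2 + 113 * z ^ 3 + 119 * z ^ 4 + 43 * z ^ 5 + 57 * z ^ 6 + 4 * z ^ 7 - 73 * z ^ 8 - 102 * z ^ 9 - 71 * z ^ 10) * h1
  have e12 : (180 + 91 * z + 167 * z ^ 2 + 215 * z ^ 3 + 204 * z ^ 4 + 164 * z ^ 5 + 147 * z ^ 6 + 128 * z ^ 7 + 116 * z ^ 8 + 158 * z ^ 9 + 168 * z ^ 10 + 133 * z ^ 11 + 177 * z ^ 12) * (1 + z ^ 9 + z ^ 11 - z ^ 12) = 460 + 303 * z + 303 * z ^ 2 + 303 * z ^ 3 + 303 * z ^ 4 + 303 * z ^ 5 + 303 * z ^ 6 + 303 * z ^ 7 + 303 * z ^ 8 + 303 * z ^ 9 + 303 * z ^ 10 + 303 * z ^ 11 + 303 * z ^ 12 := by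
    linear_combination (280 + 212 * z + 136 * z ^ 2 + 88 * z ^ 3 + 99 * z ^ 4 + 139 * z ^ 5 + 156 * z ^ 6 + 175 * z ^ 7 + 187 * z ^ 8 - 35 * z ^ 9 + 44 * z ^ 10 - 177 * z ^ 11) * h1
  have efin : 460 + 303 * z + 303 * z ^ 2 + 303 * z ^ 3 + 303 * z ^ 4 + 303 * z ^ 5 + 303 * z ^ 6 + 303 * z ^ 7 + 303 * z ^ 8 + 303 * z ^ 9 + 303 * z ^ 10 + 303 * z ^ 11 + 303 * z ^ 12 = ((157 : ℤ) : 𝓞 K) := by
    push_cast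
    linear_combination (303) * hΦ
  refine ⟨1 - z + z ^ 2 + z ^ 4, ?_⟩
  have key := natAbs_norm_eq_of_prod K (1 - z + z ^ 2 + z ^ 4) [σ1 (1 - z + z ^ 2 + z ^ 4), σ2 (1 - z + z ^ 2 + z ^ 4), σ3 (1 - z + z ^ 2 + z ^ 4), σ4 (1 - z + z ^ 2 + z ^ 4), σ5 (1 - z + z ^ 2 + z ^ 4), σ6 (1 - z + z ^ 2 + z ^ 4), σ7 (1 - z + z ^ 2 + z ^ 4), σ8 (1 - z + z ^ 2 + z ^ 4), σ9 (1 - z + z ^ 2 + z ^ 4), σ10 (1 - z + z ^ 2 + z ^ 4), σ11 (1 - z + z ^ 2 + z ^ 4), σ12 (1 - z + z ^ 2 + z ^ 4)]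
    (by
      intro β hβ
      simp only [List.mem_cons, List.not_mem_nil, or_false] at hβ
      rcases hβ with rfl | rfl | rfl | rfl | rfl | rfl | rfl | rfl | rfl | rfl | rfl | rfl <;> exact Algebra.norm_eq_of_algEquiv _ _)
    (157) (by
      simp only [List.prod_cons, List.prod_nil, mul_one, ← mul_assoc]
      rw [c1, c2, c3, c4, c5, c6, c7, c8, c9, c10, c11, c12, e2, e3, e4, e5, e6, e7, e8, e9, e10, e11, e12, efin])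
    (by
      rw [IsCyclotomicExtension.finrank (n := 13) K (Polynomial.cyclotomic.irreducible_rat (by norm_num)),
        Nat.totient_prime (by norm_num)]
      rfl)
  simpa using key

end FLTSmall
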