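import Fermat.Agent.FLTSmall.PIDGeneral
import Fermat.Agent.FLTSmall.PIDNorm11
import Fermat.Agent.FLTSmall.PIDNorm13

/-!
`ℤ[ζ_p]` is a PID for `p = 7, 11, 13`.
-/

namespace FLTSmall

open NumberField Ideal IsCyclotomicExtension Module
open scoped Real Nat

lemma minkowski_bound_lt (r n : ℕ) (D : ℤ) (s B : ℝ) (hs : 0 ≤ s) (hD : |(D : ℝ)| ≤ s ^ 2)
    (h : (4 / 3.14 : ℝ) ^ r * ((n ! : ℝ) / (n : ℝ) ^ n * s) < B) :
    (4 / π) ^ r * ((n ! : ℝ) / (n : ℝ) ^ n * √|(D : ℝ)|) < B := by
  refine lt_of_le_of_lt ?_ h
  have h1 : √|(D : ℝ)| ≤ s := by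
    rw [Real.sqrt_le_left hs]
    exact hD
  have h2 : 4 / π ≤ 4 / 3.14 := by
    apply div_le_div_of_nonneg_left (by norm_num) (by norm_num) Real.pi_gt_d2.le
  have h3 : (0 : ℝ) ≤ 4 / π := by positivity
  gcongr

lemma orderOf_23_mod_11 : orderOf ((23 : ℕ) : ZMod 11) = 1 := by
  rw [show ((23 : ℕ) : ZMod 11) = 1 from by decide]
  exact orderOf_one

lemma orderOf_3_mod_13 : orderOf ((3 : ℕ) : ZMod 13) = 3 := by
  have : Fact (Nat.Prime 3) := ⟨by norm_num⟩
  exact orderOf_eq_prime (by decide +revert) (by decide +revert)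

lemma orderOf_53_mod_13 : orderOf ((53 : ℕ) : ZMod 13) = 1 := by
  rw [show ((53 : ℕ) : ZMod 13) = 1 from by decide]
  exact orderOf_one

lemma orderOf_79_mod_13 : orderOf ((79 : ℕ) : ZMod 13) = 1 := by
  rw [show ((79 : ℕ) : ZMod 13) = 1 from by decide]
  exact orderOf_one

lemma orderOf_131_mod_13 : orderOf ((131 : ℕ) : ZMod 13) = 1 := by
  rw [show ((131 : ℕ) : ZMod 13) = 1 from by decide]
  exact orderOf_one

lemma orderOf_157_mod_13 : orderOf ((157 : ℕ) : ZMod 13) = 1 := by
  rw [show ((157 : ℕ) : ZMod 13) = 1 from by decide]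
  exact orderOf_one

theorem pid_seven (K : Type*) [Field K] [NumberField K] [IsCyclotomicExtension {7} ℚ K] :
    IsPrincipalIdealRing (𝓞 K) := by
  have : Fact (Nat.Prime 7) := ⟨by norm_num⟩
  apply pid_of_bound 7 K 4
  · rw [IsCyclotomicExtension.Rat.discr_prime 7 K, IsCyclotomicExtension.finrank (n := 7) K
      (Polynomial.cyclotomic.irreducible_rat (by norm_num)),
      IsCyclotomicExtension.Rat.nrComplexPlaces_eq_totient_div_two 7,
      Nat.totient_prime (by norm_num)]
    apply minkowski_bound_lt _ _ _ 129.65 _ (by norm_num)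
    · norm_num
    · norm_num [Nat.factorial]
  · intro q hq hqprime hq7
    left
    have hndvd : ¬ 7 ∣ q := fun h => hq7 ((Nat.prime_dvd_prime_iff_eq (by norm_num) hqprime).mp h).symm
    apply lt_pow_orderOf 7 4 3 q hqprime.one_lt hndvd (by norm_num)
    rw [Finset.mem_Icc] at hq
    obtain ⟨-, h2⟩ := hq
    have h1 := hqprime.two_le
    interval_cases q <;> decide

theorem pid_eleven (K : Type*) [Field K] [NumberField K] [IsCyclotomicExtension {11} ℚ K] :
    IsPrincipalIdealRing (𝓞 K) := by
  have : Fact (Nat.Prime 11) := ⟨by norm_num⟩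
  apply pid_of_bound 11 K 59
  · rw [IsCyclotomicExtension.Rat.discr_prime 11 K, IsCyclotomicExtension.finrank (n := 11) K
      (Polynomial.cyclotomic.irreducible_rat (by norm_num)),
      IsCyclotomicExtension.Rat.nrComplexPlaces_eq_totient_div_two 11,
      Nat.totient_prime (by norm_num)]
    apply minkowski_bound_lt _ _ _ 48559 _ (by norm_num)
    · norm_num
    · norm_num [Nat.factorial]
  · intro q hq hqprime hq11
    have hndvd : ¬ 11 ∣ q :=
      fun h => hq11 ((Nat.prime_dvd_prime_iff_eq (by norm_num) hqprime).mp h).symm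
    by_cases h23 : q = 23
    · right
      subst h23
      rw [orderOf_23_mod_11, pow_one]
      exact exists_norm_eleven_23 K
    · left
      apply lt_pow_orderOf 11 59 6 q hqprime.one_lt hndvd (by norm_num)
      rw [Finset.mem_Icc] at hq
      obtain ⟨-, h2⟩ := hq
      have h1 := hqprime.two_le
      interval_cases q <;>
        first
          | exact absurd rfl h23
          | decide
          | exact absurd hqprime (by norm_num)

theorem pid_thirteen (K : Type*) [Field K] [NumberField K] [IsCyclotomicExtension {13} ℚ K] :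
    IsPrincipalIdealRing (𝓞 K) := by
  have : Fact (Nat.Prime 13) := ⟨by norm_num⟩
  apply pid_of_bound 13 K 307
  · rw [IsCyclotomicExtension.Rat.discr_prime 13 K, IsCyclotomicExtension.finrank (n := 13) K
      (Polynomial.cyclotomic.irreducible_rat (by norm_num)),
      IsCyclotomicExtension.Rat.nrComplexPlaces_eq_totient_div_two 13,
      Nat.totient_prime (by norm_num)]
    apply minkowski_bound_lt _ _ _ 1338717 _ (by norm_num)
    · norm_num
    · norm_num [Nat.factorial]
  · intro q hq hqprime hq13
    have hndvd : ¬ 13 ∣ q :=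
      fun h => hq13 ((Nat.prime_dvd_prime_iff_eq (by norm_num) hqprime).mp h).symm
    by_cases h3 : q = 3
    · right
      subst h3
      rw [orderOf_3_mod_13]
      exact exists_norm_thirteen_27 K
    by_cases h53 : q = 53
    · right
      subst h53
      rw [orderOf_53_mod_13, pow_one]
      exact exists_norm_thirteen_53 K
    by_cases h79 : q = 79
    · right
      subst h79
      rw [orderOf_79_mod_13, pow_one]
      exact exists_norm_thirteen_79 K
    by_cases h131 : q = 131
    · right
      subst h131
      rw [orderOf_131_mod_13, pow_one]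
      exact exists_norm_thirteen_131 K
    by_cases h157 : q = 157
    · right
      subst h157
      rw [orderOf_157_mod_13, pow_one]
      exact exists_norm_thirteen_157 K
    · left
      apply lt_pow_orderOf 13 307 9 q hqprime.one_lt hndvd (by norm_num)
      rw [Finset.mem_Icc] at hq
      obtain ⟨-, h2⟩ := hq
      have h1 := hqprime.two_le
      interval_cases q <;>
        first
          | exact absurd rfl h3
          | exact absurd rfl h53
          | exact absurd rfl h79
          | exact absurd rfl h131
          | exact absurd rfl h157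
          | decide
          | exact absurd hqprime (by norm_num)

end FLTSmall
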