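import Mathlib

/-!
General tools to prove that the ring of integers of the `p`-th cyclotomic field is a PID
(used for `p = 7, 11, 13`).
-/

namespace FLTSmall

open NumberField Ideal IsCyclotomicExtension Module
open scoped Real Nat

section general

variable (p : ℕ) [hp : Fact p.Prime] (K : Type*) [Field K] [NumberField K]
  [hK : IsCyclotomicExtension {p} ℚ K]

include hK in
lemma exists_principal_prime_of_norm {q : ℕ} (hq : q.Prime) (hqp : q ≠ p) (α : 𝓞 K)
    (hα : (Algebra.norm ℤ α).natAbs = q ^ orderOf (q : ZMod p)) :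
    ∃ P ∈ primesOver (span {(q : ℤ)}) (𝓞 K), Submodule.IsPrincipal P := by
  have : Fact q.Prime := ⟨hq⟩
  have hndvd : ¬ q ∣ p := fun h => hqp ((Nat.prime_dvd_prime_iff_eq hq hp.out).mp h)
  obtain ⟨⟨P₀, hP₀prime, hP₀lies⟩⟩ := (span {(q : ℤ)}).nonempty_primesOver (S := 𝓞 K)
  have hf₀ := IsCyclotomicExtension.Rat.inertiaDeg_eq_of_not_dvd q K P₀ (m := p) hndvd
  have hfpos : 0 < orderOf (q : ZMod p) := by
    rw [← hf₀]
    exact inertiaDeg_pos ..
  have hne : span {α} ≠ ⊤ := by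
    intro h
    have h1 := absNorm_eq_one_iff.mpr h
    rw [absNorm_span_singleton, hα] at h1
    have h2 : 1 < q ^ orderOf (q : ZMod p) := Nat.one_lt_pow hfpos.ne' hq.one_lt
    omega
  obtain ⟨P, hPmax, hle⟩ := exists_le_maximal _ hne
  have hPprime : P.IsPrime := hPmax.isPrime
  have hqP : (q : 𝓞 K) ∈ P := by
    have h1 := hle (absNorm_mem (span {α}))
    rw [absNorm_span_singleton, hα] at h1
    push_cast at h1
    exact hPprime.mem_of_pow_mem _ h1
  have hlies : P.LiesOver (span {(q : ℤ)}) := by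
    rw [liesOver_iff]
    refine IsMaximal.eq_of_le (Int.ideal_span_isMaximal_of_prime q) IsPrime.ne_top' ?_
    rw [span_singleton_le_iff_mem, mem_comap, algebraMap_int_eq, map_natCast]
    exact hqP
  have hf := IsCyclotomicExtension.Rat.inertiaDeg_eq_of_not_dvd q K P (m := p) hndvd
  have hN : absNorm P = q ^ orderOf (q : ZMod p) := by rw [← hf, pow_inertiaDeg]
  have heq : span {α} = P := by
    obtain ⟨J, hJ⟩ := dvd_iff_le.mpr hle
    have h1 := congrArg absNorm hJ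
    rw [map_mul, absNorm_span_singleton, hα, hN] at h1
    have h2 : absNorm J = 1 := by
      have h3 : 0 < q ^ orderOf (q : ZMod p) := pow_pos hq.pos _
      exact (Nat.eq_of_mul_eq_mul_left h3 (by rw [mul_one]; exact h1)).symm
    rw [absNorm_eq_one_iff.mp h2, mul_top] at hJ
    exact hJ
  exact ⟨P, ⟨hPprime, hlies⟩, ⟨α, heq.symm⟩⟩

include hK in
theorem pid_of_bound (B : ℕ)
    (hB : (4 / π) ^ InfinitePlace.nrComplexPlaces K *
      ((finrank ℚ K)! / (finrank ℚ K) ^ (finrank ℚ K) * √|discr K|) < B + 1)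
    (h : ∀ q ∈ Finset.Icc 1 B, q.Prime → q ≠ p → B < q ^ orderOf (q : ZMod p) ∨
      ∃ α : 𝓞 K, (Algebra.norm ℤ α).natAbs = q ^ orderOf (q : ZMod p)) :
    IsPrincipalIdealRing (𝓞 K) := by
  have : IsGalois ℚ K := isGalois {p} ℚ K
  have hfloor : ⌊(4 / π) ^ InfinitePlace.nrComplexPlaces K *
      ((finrank ℚ K)! / (finrank ℚ K) ^ (finrank ℚ K) * √|discr K|)⌋₊ ≤ B := by
    apply Nat.le_of_lt_succ
    rw [Nat.floor_lt (by positivity)]
    exact_mod_cast hB
  apply RingOfIntegers.isPrincipalIdealRing_of_isPrincipal_of_lt_or_isPrincipal_of_mem_primesOver_of_mem_Icc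
  intro q hq hqprime
  rw [Finset.mem_Icc] at hq
  by_cases hqp : q = p
  · subst hqp
    obtain ⟨⟨P₀, hP₀prime, hP₀lies⟩⟩ := (span {(q : ℤ)}).nonempty_primesOver (S := 𝓞 K)
    refine ⟨P₀, ⟨hP₀prime, hP₀lies⟩, Or.inr ?_⟩
    rw [IsCyclotomicExtension.Rat.eq_span_zeta_sub_one_of_liesOver' q K (zeta_spec q ℚ K) P₀]
    exact ⟨_, rfl⟩
  · have : Fact q.Prime := ⟨hqprime⟩
    have hndvd : ¬ q ∣ p := fun h => hqp ((Nat.prime_dvd_prime_iff_eq hqprime hp.out).mp h)
    rcases h q (Finset.mem_Icc.mpr ⟨hq.1, hq.2.trans hfloor⟩) hqprime hqp with h1 | ⟨α, hα⟩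
    · obtain ⟨⟨P₀, hP₀prime, hP₀lies⟩⟩ := (span {(q : ℤ)}).nonempty_primesOver (S := 𝓞 K)
      refine ⟨P₀, ⟨hP₀prime, hP₀lies⟩, Or.inl ?_⟩
      rw [IsCyclotomicExtension.Rat.inertiaDeg_eq_of_not_dvd q K P₀ (m := p) hndvd]
      exact lt_of_le_of_lt hfloor h1
    · obtain ⟨P, hP, hprinc⟩ := exists_principal_prime_of_norm p K hqprime hqp α hα
      exact ⟨P, hP, Or.inr hprinc⟩

omit [NumberField K] hK in
lemma lt_pow_orderOf (B J q : ℕ) (hq : 1 < q) (hcop : ¬ p ∣ q) (hJ : B < 2 ^ J)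
    (h : ∀ j < J, 0 < j → q ^ j ≤ B → q ^ j % p ≠ 1) : B < q ^ orderOf (q : ZMod p) := by
  by_contra hle
  push Not at hle
  have hq0 : (q : ZMod p) ≠ 0 := by
    rwa [Ne, ZMod.natCast_eq_zero_iff]
  have hpos : 0 < orderOf (q : ZMod p) := by
    rw [orderOf_pos_iff, isOfFinOrder_iff_pow_eq_one]
    exact ⟨p - 1, by have := hp.out.two_le; omega, ZMod.pow_card_sub_one_eq_one hq0⟩
  have h1 : ((q ^ orderOf (q : ZMod p) : ℕ) : ZMod p) = ((1 : ℕ) : ZMod p) := by
    push_cast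
    exact pow_orderOf_eq_one _
  rw [ZMod.natCast_eq_natCast_iff'] at h1
  have hlt : orderOf (q : ZMod p) < J := by
    by_contra hJle
    push Not at hJle
    have h2 : 2 ^ J ≤ q ^ orderOf (q : ZMod p) :=
      (Nat.pow_le_pow_right (by norm_num) hJle).trans (Nat.pow_le_pow_left hq _)
    omega
  exact h _ hlt hpos hle (by rw [h1, Nat.mod_eq_of_lt hp.out.one_lt])

/-- automorphisms of the ring of integers raising `ζ` to a power -/
lemma exists_algEquiv_zeta_pow {ζ : K} (hζ : IsPrimitiveRoot ζ p) (k : ℕ) (hk : k.Coprime p) :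
    ∃ σ : 𝓞 K ≃ₐ[ℤ] 𝓞 K, σ hζ.toInteger = hζ.toInteger ^ k := by
  have hirr : Irreducible (Polynomial.cyclotomic p ℚ) :=
    Polynomial.cyclotomic.irreducible_rat hp.out.pos
  have hζk : IsPrimitiveRoot (ζ ^ k) p := hζ.pow_of_coprime k hk
  let τ : K ≃ₐ[ℚ] K := (fromZetaAut hζ hirr).symm.trans (fromZetaAut hζk hirr)
  have hτ : τ ζ = ζ ^ k := by
    have h1 : (fromZetaAut hζ hirr).symm ζ = zeta p ℚ K := by
      rw [AlgEquiv.symm_apply_eq, fromZetaAut_spec]
    simp only [τ, AlgEquiv.trans_apply, h1, fromZetaAut_spec]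
  refine ⟨galRestrict ℤ ℚ K (𝓞 K) τ, ?_⟩
  apply RingOfIntegers.ext
  have h2 := algebraMap_galRestrict_apply ℤ τ hζ.toInteger
  change algebraMap (𝓞 K) K _ = _
  rw [h2]
  simpa using hτ

omit hp hK in
lemma natAbs_norm_eq_of_prod (α : 𝓞 K) (l : List (𝓞 K))
    (hl : ∀ β ∈ l, Algebra.norm ℤ β = Algebra.norm ℤ α) (n : ℤ) (hprod : l.prod = (n : 𝓞 K))
    (hcard : l.length = finrank ℚ K) : (Algebra.norm ℤ α).natAbs = n.natAbs := by
  have h1 : Algebra.norm ℤ l.prod = (Algebra.norm ℤ α) ^ l.length := by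
    rw [map_list_prod]
    rw [List.prod_eq_pow_card _ (Algebra.norm ℤ α), List.length_map]
    intro x hx
    obtain ⟨β, hβ, rfl⟩ := List.mem_map.mp hx
    exact hl β hβ
  have h2 : Algebra.norm ℤ (n : 𝓞 K) = n ^ finrank ℚ K := by
    have := Algebra.norm_algebraMap (R := ℤ) (S := 𝓞 K) n
    rw [RingOfIntegers.rank] at this
    simpa using this
  rw [hprod, h2, hcard] at h1
  have h3 := congrArg Int.natAbs h1
  rw [Int.natAbs_pow, Int.natAbs_pow] at h3
  exact (Nat.pow_left_injective (n := finrank ℚ K) finrank_pos.ne' h3).symm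

end general

end FLTSmall
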